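import Fermat.Agent.EC.Mult.Component
import Fermat.Agent.EC.Torsion.Count
import Fermat.Agent.EC.TateFormal
import Fermat.Agent.EC.TateStructure

/-!
# The decomposition group on `p`-power torsion at a multiplicative prime

`W` over `ℤ`, `q ∣ Δ`, `q ∤ c₄`, a place `A` of `ℚ̄` over `q`, any prime `p` (possibly `p = q`).
The decomposition group fixes the normal form up to a sign `z = ±1`, trivial on inertia.  The
`pⁿ`-torsion on the identity component is a cyclic group of order `pⁿ` stable under the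
decomposition group, which acts on the quotient by `z` and, if `p ≠ q`, on the line by
`z` times the cyclotomic character.  For `p = q` this line is the kernel of reduction.
-/

set_option autoImplicit false

noncomputable section

open IsLocalRing WeierstrassCurve
open scoped WeierstrassCurve.Affine

namespace Fermat.Agent.EC.Mult

open TateTheta

local notation "Qb" => AlgebraicClosure ℚ

variable {W : WeierstrassCurve ℤ} {A : ValuationSubring (AlgebraicClosure ℚ)} {q p : ℕ}

namespace MultData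

variable (D : MultData W A) {σ : AlgebraicClosure ℚ ≃ₐ[ℚ] AlgebraicClosure ℚ}

lemma valuation_map (hσ : σ ∈ A.decompositionSubgroup ℚ) :
    ∀ z, A.valuation (σ.toRingEquiv z) = A.valuation z := fun z => valuation_apply hσ z

/-- The decomposition group fixes `c`, `r`, `t`, and `u` up to sign. -/
lemma decomposition_normalForm (hσ : σ ∈ A.decompositionSubgroup ℚ) :
    σ.toRingEquiv D.c = D.c ∧ σ D.C.r = D.C.r ∧ σ D.C.t = D.C.t ∧
      ((σ (D.C.u : Qb) = D.C.u ∧ σ D.C.s = D.C.s) ∨
        (σ (D.C.u : Qb) = -D.C.u ∧ σ D.C.s = D.C.s - D.C.u)) := by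
  set f : Qb →+* Qb := (σ.toRingEquiv : Qb →+* Qb) with hf
  have hfW : (curveQbar W).map f = curveQbar W := by
    rw [curveQbar_eq]; ext <;> simp
  have hC' : D.C.map f • curveQbar W = tateModel (σ D.c) := by
    have h := map_variableChange (curveQbar W) D.C f
    rw [hfW, D.hC] at h
    rw [h]; ext <;> simp [tateModel, WeierstrassCurve.map, hf]
  obtain ⟨e1, e2, e3, e4⟩ := eqs_of_normalForm D.hC
  obtain ⟨d1, d2, d3, d4⟩ := eqs_of_normalForm hC'
  simp only [VariableChange.map_u, Units.coe_map, MonoidHom.coe_coe, VariableChange.map_r,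
    VariableChange.map_s, VariableChange.map_t, hf, RingEquiv.coe_toRingHom,
    AlgEquiv.coe_ringEquiv] at d1 d2 d3 d4
  set V := curveQbar W with hV
  have hu2 : (D.C.u : Qb) ^ 2 = V.b₂ + 12 * D.C.r := by
    rw [e1, b₂]; linear_combination 4 * e2
  have hu2' : (σ (D.C.u : Qb)) ^ 2 = V.b₂ + 12 * σ D.C.r := by
    rw [d1, b₂]; linear_combination 4 * d2
  have hreq : σ D.C.r = D.C.r := by
    by_contra hne
    have hfac : (σ D.C.r - D.C.r) * (6 * (σ D.C.r - D.C.r) + (D.C.u : Qb) ^ 2) = 0 := by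
      rw [hu2]; linear_combination d4 - e4
    have h0 := (mul_eq_zero.mp hfac).resolve_left (sub_ne_zero.mpr hne)
    have hneg : (σ (D.C.u : Qb)) ^ 2 = -(D.C.u : Qb) ^ 2 := by
      rw [hu2', hu2]; rw [hu2] at h0; linear_combination 2 * h0
    have hc6 : ∀ {C : VariableChange Qb} {d : Qb}, C • V = tateModel d →
        V.c₆ = ((C.u : Qb) ^ 2) ^ 3 * (-1 - 864 * d) := by
      intro C d h
      have h' := congrArg WeierstrassCurve.c₆ h
      rw [variableChange_c₆, c₆_tateModel, Units.val_inv_eq_inv_val, inv_pow,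
        inv_mul_eq_iff_eq_mul₀ (pow_ne_zero _ C.u.ne_zero)] at h'
      rw [h']; ring
    have g1 := hc6 D.hC
    have g2 := hc6 hC'
    simp only [VariableChange.map_u, Units.coe_map, MonoidHom.coe_coe, hf,
      RingEquiv.coe_toRingHom, AlgEquiv.coe_ringEquiv] at g2
    rw [hneg] at g2
    have hz : ((D.C.u : Qb) ^ 2) ^ 3 * (2 + 864 * (D.c + σ D.c)) = 0 := by
      linear_combination g1 - g2
    have hsum := (mul_eq_zero.mp hz).resolve_left (pow_ne_zero _ (pow_ne_zero _ D.C.u.ne_zero))
    have h1 : (1 : Qb) = -(432 * (D.c + σ D.c)) := by linear_combination (1 / 2 : Qb) * hsum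
    have h2 := congrArg A.valuation h1
    rw [map_one, A.valuation.map_neg, map_mul] at h2
    refine h2.not_gt ?_
    refine lt_of_le_of_lt (mul_le_of_le_one_left zero_le
      (by exact_mod_cast natCast_valuation_le 432)) ?_
    refine A.valuation.map_add_lt D.hc ?_
    rw [valuation_apply hσ]
    exact D.hc
  have hteq : σ D.C.t = D.C.t := by
    rw [hreq, ← e3] at d3
    exact mul_left_cancel₀ two_ne_zero d3
  have hs : σ D.C.s = D.C.s ∨ σ D.C.s = D.C.s - D.C.u := by
    have hfac : (σ D.C.s - D.C.s) * (σ D.C.s - (D.C.s - (D.C.u : Qb))) = 0 := by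
      rw [hreq] at d2
      rw [e1]; linear_combination d2 - e2
    exact (mul_eq_zero.mp hfac).imp sub_eq_zero.mp sub_eq_zero.mp
  have hus : (σ (D.C.u : Qb) = D.C.u ∧ σ D.C.s = D.C.s) ∨
      (σ (D.C.u : Qb) = -D.C.u ∧ σ D.C.s = D.C.s - D.C.u) := by
    rcases hs with hs | hs
    · exact Or.inl ⟨by rw [d1, hs, ← e1], hs⟩
    · exact Or.inr ⟨by rw [d1, hs, e1]; ring, hs⟩
  refine ⟨?_, hreq, hteq, hus⟩
  have a6 := congrArg WeierstrassCurve.a₆ hC'
  have a6' := congrArg WeierstrassCurve.a₆ D.hC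
  rw [variableChange_a₆] at a6 a6'
  simp only [VariableChange.map_u, Units.coe_map, MonoidHom.coe_coe, VariableChange.map_r,
    VariableChange.map_t, hf, RingEquiv.coe_toRingHom, AlgEquiv.coe_ringEquiv, hreq, hteq,
    Units.val_inv_eq_inv_val, tateModel] at a6 a6'
  have hu6 : ((σ (D.C.u : Qb))⁻¹) ^ 6 = ((D.C.u : Qb)⁻¹) ^ 6 := by
    rcases hus with ⟨h, -⟩ | ⟨h, -⟩ <;> rw [h]
    rw [inv_neg, Even.neg_pow ⟨3, rfl⟩]
  rw [hu6] at a6
  exact a6.symm.trans a6'

/-- The sign by which `σ` twists the normal form. -/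
def sign (D : MultData W A) (σ : AlgebraicClosure ℚ ≃ₐ[ℚ] AlgebraicClosure ℚ) : ℤ :=
  open Classical in if σ (D.C.u : Qb) = D.C.u then 1 else -1

lemma sign_eq_one_or (σ : AlgebraicClosure ℚ ≃ₐ[ℚ] AlgebraicClosure ℚ) :
    D.sign σ = 1 ∨ D.sign σ = -1 := by
  rw [sign]; split_ifs <;> simp

lemma sign_mul_self (σ : AlgebraicClosure ℚ ≃ₐ[ℚ] AlgebraicClosure ℚ) :
    D.sign σ * D.sign σ = 1 := by
  rcases D.sign_eq_one_or σ with h | h <;> rw [h] <;> norm_num

lemma sign_eq_one_of_mem_inertia (hσ : σ ∈ A.inertiaSubgroupIn ℚ) : D.sign σ = 1 := by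
  rw [sign, if_pos]
  exact congrArg (fun C => (C.u : Qb)) (D.fixed hσ).1

/-- Decomposition elements commute with the normal form isomorphism up to the sign. -/
lemma smul_equiv (hσ : σ ∈ A.decompositionSubgroup ℚ) (Q : (tateModel D.c).toAffine.Point) :
    σ • D.equiv Q = D.sign σ •
      D.equiv (mapPt σ.toRingEquiv (D.decomposition_normalForm hσ).1 Q) := by
  rcases Q with _ | ⟨x, y, h⟩
  · have h0 : D.equiv (0 : (tateModel D.c).toAffine.Point) = 0 := map_zero D.equiv
    show σ • D.equiv 0 = D.sign σ • D.equiv 0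
    rw [h0]
    exact (smul_zero (A := ((W.map (Int.castRingHom ℚ))⁄Qb).Point) σ).trans (zsmul_zero _).symm
  obtain ⟨-, hr, ht, hus⟩ := D.decomposition_normalForm hσ
  rcases hus with ⟨hu, hs⟩ | ⟨hu, hs⟩
  · rw [sign, if_pos hu, one_smul]
    simp [equiv, mapPt, vcPointEquiv_some, Affine.Point.algEquiv_smul_def, Affine.Point.map_some,
      vcX, vcY, hu, hr, hs, ht]
  · have hne : ¬ σ (D.C.u : Qb) = D.C.u := by
      rw [hu]
      intro h
      have h2 : (2 : Qb) * D.C.u = 0 := by linear_combination -h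
      exact D.C.u.ne_zero ((mul_eq_zero.mp h2).resolve_left two_ne_zero)
    rw [sign, if_neg hne, neg_one_zsmul, ← map_neg]
    simp only [mapPt, Affine.Point.neg_some]
    simp [equiv, vcPointEquiv_some, Affine.Point.algEquiv_smul_def, Affine.Point.map_some,
      vcX, vcY, hu, hr, hs, ht, show (tateModel D.c).toAffine.a₁ = 1 from rfl,
      show (tateModel D.c).toAffine.a₃ = 0 from rfl]
    ring

include D in
/-- At most `p` points of `p`-torsion lie on the identity component. -/
lemma natCard_isE0_torsion_le (hq : q.Prime) (hA : A.LiesOverPrime q) (hΔ : (q : ℤ) ∣ W.Δ)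
    (hp : p.Prime) :
    Nat.card {R : (tateModel D.c).toAffine.Point // p • R = 0 ∧ IsE0 A R} ≤ p := by
  rcases eq_or_ne p q with rfl | hpq
  · refine natCard_isE0_torsion_le_of_residueChar D.hc D.hc0 hp ((A.mem_nonunits_iff).1 hA)
      (Nat.cast_ne_zero.mpr hp.ne_zero) ?_
    obtain ⟨m, hm⟩ := hΔ
    rw [D.hvc, hm, Int.cast_mul, map_mul, Int.cast_natCast]
    exact mul_le_of_le_one_right zero_le ((A.valuation_le_one_iff _).mpr (intCast_mem A m))
  · exact (card_isE0_torsion D.hc0 D.hc hp (natCast_residue_ne_zero A hq hA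
      (fun h => hpq ((Nat.prime_dvd_prime_iff_eq hq hp).1 h).symm))
      (by
        have : (tateModel D.c).toAffine.IsElliptic := by
          refine ⟨isUnit_iff_ne_zero.mpr ?_⟩
          show (tateModel D.c).Δ ≠ 0
          rw [← D.hC, variableChange_Δ]
          refine mul_ne_zero (pow_ne_zero _ (Units.ne_zero _)) ?_
          intro h0
          have h1 := congrArg A.valuation h0
          rw [curveQbar_eq, map_Δ, map_zero] at h1
          change A.valuation (W.Δ : Qb) = 0 at h1
          rw [← D.hvc, map_eq_zero] at h1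
          exact D.hc0 h1
        rw [← natCard_torsionBy (tateModel D.c).toAffine (n := p)
          (Nat.cast_ne_zero.mpr hp.ne_zero)]
        exact Nat.card_congr (Equiv.subtypeEquivRight fun R => by
          rw [Submodule.mem_torsionBy_iff, natCast_zsmul]))).le

/-- The point is on the identity component. -/
def OnIdentityComponent (P : ((W.map (Int.castRingHom ℚ))⁄Qb).Point) : Prop :=
  IsE0 A (D.equiv.symm P)

lemma onIdentityComponent_iff (P : ((W.map (Int.castRingHom ℚ))⁄Qb).Point) :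
    D.OnIdentityComponent P ↔ W.InZeroComponentAt A P := by
  obtain ⟨Q, rfl⟩ := D.equiv.surjective P
  rw [OnIdentityComponent, AddEquiv.symm_apply_apply, D.inZeroComponentAt_equiv_iff]

/-- **Compatible bases of `E[pⁿ]`** at a multiplicative prime, adapted to the identity
component. -/
theorem exists_compatible_basis (hq : q.Prime) (hA : A.LiesOverPrime q) (hΔ : (q : ℤ) ∣ W.Δ)
    (hp : p.Prime) :
    ∃ T P : ℕ → ((W.map (Int.castRingHom ℚ))⁄Qb).Point, T 0 = 0 ∧ P 0 = 0 ∧
      (∀ n, p • T (n + 1) = T n) ∧ (∀ n, p • P (n + 1) = P n) ∧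
      (∀ n, p ^ n • T n = 0) ∧ (∀ n, p ^ n • P n = 0) ∧
      (∀ n, D.OnIdentityComponent (T n)) ∧
      (∀ n R, p ^ n • R = 0 → D.OnIdentityComponent R → ∃ i : ℕ, R = i • T n) ∧
      (∀ n R, p ^ n • R = 0 → ∃ i j : ℕ, R = i • T n + j • P n) ∧
      (∀ n (a b : ℤ), a • T n + b • P n = 0 → (p : ℤ) ^ n ∣ a ∧ (p : ℤ) ^ n ∣ b) := by
  have hell : (tateModel D.c).toAffine.IsElliptic := by
    refine ⟨isUnit_iff_ne_zero.mpr ?_⟩
    show (tateModel D.c).Δ ≠ 0
    rw [← D.hC, variableChange_Δ]
    refine mul_ne_zero (pow_ne_zero _ (Units.ne_zero _)) ?_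
    intro h0
    have h1 := congrArg A.valuation h0
    rw [curveQbar_eq, map_Δ, map_zero] at h1
    change A.valuation (W.Δ : Qb) = 0 at h1
    rw [← D.hvc, map_eq_zero] at h1
    exact D.hc0 h1
  have hcard : Nat.card {R : (tateModel D.c).toAffine.Point // p • R = 0} = p ^ 2 := by
    rw [← natCard_torsionBy (tateModel D.c).toAffine (n := p) (Nat.cast_ne_zero.mpr hp.ne_zero)]
    exact Nat.card_congr (Equiv.subtypeEquivRight fun R => by
      rw [Submodule.mem_torsionBy_iff, natCast_zsmul])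
  obtain ⟨T, P, hT0, hP0, hT, hP, hTt, hPt, hTE, hgen, hspan, hind⟩ :=
    TateTheta.exists_compatible_basis D.hc0 D.hc hp hcard (D.natCard_isE0_torsion_le hq hA hΔ hp)
      (nsmul_surjective (W := (tateModel D.c).toAffine) hp.ne_zero)
  refine ⟨fun n => D.equiv (T n), fun n => D.equiv (P n), by simp [hT0], by simp [hP0],
    fun n => by rw [← map_nsmul, hT], fun n => by rw [← map_nsmul, hP],
    fun n => by rw [← map_nsmul, hTt, map_zero], fun n => by rw [← map_nsmul, hPt, map_zero],
    fun n => by rw [OnIdentityComponent, AddEquiv.symm_apply_apply]; exact hTE n, ?_, ?_, ?_⟩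
  · intro n R hR hE
    obtain ⟨i, hi⟩ := hgen n _ (by rw [← map_nsmul, hR, map_zero]) hE
    exact ⟨i, by rw [← map_nsmul, ← hi, AddEquiv.apply_symm_apply]⟩
  · intro n R hR
    obtain ⟨i, j, hij⟩ := hspan n (D.equiv.symm R) (by rw [← map_nsmul, hR, map_zero])
    exact ⟨i, j, by rw [← map_nsmul, ← map_nsmul, ← map_add, ← hij, AddEquiv.apply_symm_apply]⟩
  · intro n a b h
    rw [← map_zsmul, ← map_zsmul, ← map_add] at h
    exact hind n a b (D.equiv.injective (h.trans (map_zero _).symm))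

/-- The decomposition group acts on the component quotient by the sign. -/
theorem onIdentityComponent_smul_sub (hσ : σ ∈ A.decompositionSubgroup ℚ)
    (P : ((W.map (Int.castRingHom ℚ))⁄Qb).Point) :
    D.OnIdentityComponent (σ • P - D.sign σ • P) := by
  obtain ⟨Q, rfl⟩ := D.equiv.surjective P
  rw [OnIdentityComponent, D.smul_equiv hσ, ← zsmul_sub, map_zsmul, map_sub,
    AddEquiv.symm_apply_apply, AddEquiv.symm_apply_apply]
  exact isE0_zsmul D.hc0 D.hc
    (isE0_mapPt_sub_of_valuation D.hc0 D.hc σ.toRingEquiv (valuation_map hσ) _ Q) _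

/-- The decomposition group stabilises the identity component. -/
theorem onIdentityComponent_smul (hσ : σ ∈ A.decompositionSubgroup ℚ)
    {P : ((W.map (Int.castRingHom ℚ))⁄Qb).Point} (hP : D.OnIdentityComponent P) :
    D.OnIdentityComponent (σ • P) := by
  obtain ⟨Q, rfl⟩ := D.equiv.surjective P
  rw [OnIdentityComponent, AddEquiv.symm_apply_apply] at hP
  rw [OnIdentityComponent, D.smul_equiv hσ, map_zsmul, AddEquiv.symm_apply_apply]
  exact isE0_zsmul D.hc0 D.hc ((isE0_mapPt_iff σ.toRingEquiv (valuation_map hσ) _ Q).mpr hP) _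

/-- Prime to `q`, the decomposition group acts on identity-component torsion by the sign times
its action on roots of unity. -/
theorem smul_eq_of_onIdentityComponent (hσ : σ ∈ A.decompositionSubgroup ℚ) {N e : ℕ}
    (hN : (N : ResidueField A) ≠ 0) (he : ∀ μ : Qb, μ ^ N = 1 → σ μ = μ ^ e)
    {P : ((W.map (Int.castRingHom ℚ))⁄Qb).Point} (hNP : N • P = 0)
    (hP : D.OnIdentityComponent P) : σ • P = (D.sign σ * (e : ℤ)) • P := by
  obtain ⟨Q, rfl⟩ := D.equiv.surjective P
  have hQ : N • Q = 0 := D.equiv.injective (by rw [map_nsmul, hNP, map_zero])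
  rw [OnIdentityComponent, AddEquiv.symm_apply_apply] at hP
  rw [D.smul_equiv hσ, mapPt_eq_nsmul_of_isE0 D.hc0 D.hc σ.toRingEquiv (valuation_map hσ) _ hN he
    hQ hP, map_nsmul, mul_zsmul, natCast_zsmul]

include D in
/-- In residue characteristic `p`, `p`-power torsion on the identity component is the kernel of
reduction. -/
theorem onIdentityComponent_iff_kernel (hq : q.Prime) (hA : A.LiesOverPrime q) {n : ℕ}
    {X Y : Qb} (h : ((W.map (Int.castRingHom ℚ))⁄Qb).toAffine.Nonsingular X Y)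
    (hP : q ^ n • (Affine.Point.some X Y h : ((W.map (Int.castRingHom ℚ))⁄Qb).Point) = 0) :
    D.OnIdentityComponent (Affine.Point.some X Y h) ↔ X ∉ A := by
  obtain ⟨Q, hQe⟩ := D.equiv.surjective (Affine.Point.some X Y h)
  have hQ : q ^ n • Q = 0 := D.equiv.injective (by rw [map_nsmul, hQe, hP, map_zero])
  rw [OnIdentityComponent, ← hQe, AddEquiv.symm_apply_apply]
  rcases Q with _ | ⟨x, y, hxy⟩
  · exact absurd ((map_zero D.equiv).symm.trans hQe).symm (Affine.Point.some_ne_zero h)
  rw [D.equiv_not_mem_iff hxy h hQe, ← A.valuation_le_one_iff, not_le]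
  exact ⟨fun h' => isE1_of_isE0_torsion D.hc D.hc0 hq ((A.mem_nonunits_iff).1 hA) hQ h',
    fun h' => h'.le⟩

end MultData

/-! ### The line in `E[p]` -/

section torsion

set_option quotPrecheck false in
local notation "Ep" =>
  ↥(Submodule.torsionBy ℤ (Affine.Point ((W.map (Int.castRingHom ℚ))⁄Qb)) (p : ℤ))

/-- At a multiplicative prime `q`, for every prime `p` (including `p = q`), `E[p]` has a line
stable under the decomposition group, which acts on the quotient by a sign trivial on inertia. -/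
theorem exists_decomposition_line (hq : q.Prime) (hA : A.LiesOverPrime q) (hΔ0 : W.Δ ≠ 0)
    (hΔ : (q : ℤ) ∣ W.Δ) (hc4 : ¬ (q : ℤ) ∣ W.c₄) (hp : p.Prime) :
    ∃ N : Submodule (ZMod p) Ep, Nat.card N = p ∧
      (∀ σ ∈ A.decompositionSubgroup ℚ, ∀ x ∈ N, σ • x ∈ N) ∧
      (∀ σ ∈ A.inertiaSubgroupIn ℚ, ∀ x : Ep, σ • x - x ∈ N) ∧
      (∀ σ ∈ A.decompositionSubgroup ℚ, ∃ z : ℤ, z * z = 1 ∧
        ∀ x : Ep, σ • x - z • x ∈ N) := by
  obtain ⟨D⟩ := nonempty_multData hq hA hΔ0 hΔ hc4
  obtain ⟨T, P, -, -, -, -, hTt, -, hTE, hgen, -, hind⟩ :=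
    D.exists_compatible_basis hq hA hΔ hp
  let H : AddSubgroup Ep := AddSubgroup.ofSub {x : Ep | D.OnIdentityComponent x}
    ⟨0, by simp [MultData.OnIdentityComponent, TateTheta.IsE0]⟩ fun {x} hx {y} hy => by
      have := IsE0.sub (A := A) D.hc hx hy D.hc0
      show IsE0 A (D.equiv.symm ((x : Ep).1 + -(y : Ep).1))
      rw [← sub_eq_add_neg, map_sub]
      exact this
  have hT1 : T 1 ∈ Submodule.torsionBy ℤ ((W.map (Int.castRingHom ℚ))⁄Qb).Point (p : ℤ) := by
    rw [Submodule.mem_torsionBy_iff, natCast_zsmul]; simpa using hTt 1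
  refine ⟨AddSubgroup.toZModSubmodule p H, ?_, ?_, ?_, ?_⟩
  · -- the line is generated by `T 1`
    have hT0 : T 1 ≠ 0 := by
      intro h0
      have h1 := (hind 1 1 0 (by simp [h0])).1
      rw [pow_one] at h1
      exact hp.not_dvd_one (Int.natCast_dvd_natCast.mp (by exact_mod_cast h1))
    have hord : addOrderOf (T 1) = p :=
      addOrderOf_eq_prime (hp := ⟨hp⟩) (by simpa using hTt 1) hT0
    refine Eq.trans (Nat.card_congr ?_) ((Nat.card_zmultiples (T 1)).trans hord)
    refine
      { toFun := fun x => ⟨x.1.1, ?_⟩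
        invFun := fun y => ⟨⟨y.1, ?_⟩, ?_⟩
        left_inv := fun _ => rfl
        right_inv := fun _ => rfl }
    · obtain ⟨i, hi⟩ := hgen 1 x.1.1
        (by rw [pow_one, ← natCast_zsmul]; exact (Submodule.mem_torsionBy_iff _ _).mp x.1.2) x.2
      exact ⟨i, by simp [hi]⟩
    · obtain ⟨i, hi⟩ := y.2
      rw [← hi]
      exact Submodule.smul_mem _ i hT1
    · obtain ⟨i, hi⟩ := y.2
      show IsE0 A (D.equiv.symm y.1)
      rw [← hi]
      show IsE0 A (D.equiv.symm (i • T 1))
      rw [map_zsmul]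
      exact isE0_zsmul D.hc0 D.hc (hTE 1) i
  · intro σ hσ x hx
    exact D.onIdentityComponent_smul hσ hx
  · intro σ hσ x
    have h := D.onIdentityComponent_smul_sub (mem_decompositionSubgroup_of_mem_inertia hσ)
      (x : Ep).1
    rwa [D.sign_eq_one_of_mem_inertia hσ, one_smul] at h
  · intro σ hσ
    exact ⟨D.sign σ, D.sign_mul_self σ, fun x => D.onIdentityComponent_smul_sub hσ (x : Ep).1⟩

end torsion

end Fermat.Agent.EC.Mult
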