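import Fermat.Agent.EC.Inertia.Hensel
import Fermat.Agent.EC.Inertia.NumberField
import Fermat.Agent.Galois.Minkowski
import Fermat.Agent.Galois.Frobenius
import Fermat.Prelude.Def_EllipticCurve_FrobeniusTrace
import Mathlib.NumberTheory.Padics.PadicVal.Basic
import Mathlib.FieldTheory.Normal.Closure

/-!
# Ramification facts at a place of `ℚ̄`

Inertia acting on residues, the value group of the inertia field and the
movement of tame radicals under inertia.
-/

set_option autoImplicit false

noncomputable section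

open IsLocalRing
open scoped Pointwise NumberField

namespace Fermat.Agent.EC.Mult

local notation "Qb" => AlgebraicClosure ℚ

local instance : Algebra.IsAlgebraic ℚ Qb := AlgebraicClosure.isAlgebraic ℚ

local instance : IsAlgClosure ℚ Qb := ⟨inferInstance, inferInstance⟩

local instance : IsGalois ℚ Qb := IsAlgClosure.isGalois ℚ Qb

variable {A : ValuationSubring Qb} {q : ℕ} {σ : Qb ≃ₐ[ℚ] Qb}

theorem valuation_natCast_lt_one (hA : A.LiesOverPrime q) : A.valuation (q : Qb) < 1 :=
  A.mem_nonunits_iff.1 hA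

theorem valuation_natCast_ne_zero (hq : q.Prime) : A.valuation (q : Qb) ≠ 0 :=
  A.valuation.ne_zero_iff.2 (Nat.cast_ne_zero.2 hq.ne_zero)

theorem valuation_intCast_eq_one (hq : q.Prime) (hA : A.LiesOverPrime q) {m : ℤ}
    (hm : ¬ (q : ℤ) ∣ m) : A.valuation (m : Qb) = 1 :=
  le_antisymm ((A.valuation_le_one_iff _).2 (intCast_mem A m))
    (not_lt.1 fun h => hm ((Galois.intCast_mem_nonunits_iff A hq hA m).1 (A.mem_nonunits_iff.2 h)))

theorem valuation_intCast (hq : q.Prime) (hA : A.LiesOverPrime q) {m : ℤ} (hm : m ≠ 0) :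
    A.valuation (m : Qb) = A.valuation (q : Qb) ^ padicValInt q m := by
  have : Fact q.Prime := ⟨hq⟩
  obtain ⟨u, hu⟩ : (q : ℤ) ^ padicValInt q m ∣ m := padicValInt_dvd m
  have hu' : ¬ (q : ℤ) ∣ u := by
    intro hd
    have h1 : (q : ℤ) ^ (padicValInt q m + 1) ∣ m := by
      conv_rhs => rw [hu]
      rw [pow_succ]
      exact mul_dvd_mul_left _ hd
    rcases (padicValInt_dvd_iff _ _).1 h1 with h | h
    · exact hm h
    · omega
  conv_lhs => rw [hu]
  rw [Int.cast_mul, map_mul, valuation_intCast_eq_one hq hA hu', mul_one, Int.cast_pow,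
    Int.cast_natCast, map_pow]

/-- Inertia acts trivially on residues. -/
theorem valuation_apply_sub_lt_one (hσ : σ ∈ A.inertiaSubgroupIn ℚ) {x : Qb} (hx : x ∈ A) :
    A.valuation (σ x - x) < 1 :=
  A.mem_nonunits_iff.1 (Inertia.apply_sub_mem_nonunits hσ hx)

theorem mem_decompositionSubgroup_of_mem_inertia (hσ : σ ∈ A.inertiaSubgroupIn ℚ) :
    σ ∈ A.decompositionSubgroup ℚ := by
  obtain ⟨τ, -, rfl⟩ := hσ
  exact τ.2

theorem apply_mem_iff (hσ : σ ∈ A.decompositionSubgroup ℚ) (x : Qb) : σ x ∈ A ↔ x ∈ A := by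
  have h := (ValuationSubring.smul_mem_pointwise_smul_iff (g := σ) (S := A) (x := x))
  rw [MulAction.mem_stabilizer_iff.1 hσ] at h
  exact h

/-- The decomposition group preserves the valuation. -/
theorem valuation_apply (hσ : σ ∈ A.decompositionSubgroup ℚ) (x : Qb) :
    A.valuation (σ x) = A.valuation x := by
  rcases eq_or_ne x 0 with rfl | hx
  · rw [map_zero]
  have hle : ∀ a b : Qb, A.valuation (σ a) ≤ A.valuation (σ b) ↔
      A.valuation a ≤ A.valuation b := by
    intro a b
    rcases eq_or_ne b 0 with rfl | hb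
    · simp
    have hσb : σ b ≠ 0 := by simpa using hb
    rw [← div_le_one₀ (zero_lt_iff.2 (A.valuation.ne_zero_iff.2 hσb)),
      ← div_le_one₀ (zero_lt_iff.2 (A.valuation.ne_zero_iff.2 hb)), ← map_div₀, ← map_div₀,
      A.valuation_le_one_iff, ← map_div₀, A.valuation_le_one_iff]
    exact apply_mem_iff hσ _
  -- the orbit of `x` is finite, so it cannot move strictly
  obtain ⟨m, hm, hper⟩ : ∃ m, 0 < m ∧ (σ ^ m) x = x := by
    obtain ⟨i, j, hij, heq⟩ : ∃ i j : ℕ, i ≠ j ∧ (σ ^ i) x = (σ ^ j) x := by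
      have : Finite (((minpoly ℚ x).rootSet Qb)) :=
        ((minpoly ℚ x).rootSet_finite Qb).to_subtype
      obtain ⟨i, j, hij, h⟩ := Finite.exists_ne_map_eq_of_infinite
        fun n : ℕ => (⟨(σ ^ n) x, by
          rw [Polynomial.mem_rootSet,]
          refine ⟨minpoly.ne_zero (Algebra.IsIntegral.isIntegral x), ?_⟩
          rw [Polynomial.aeval_algHom_apply, minpoly.aeval, map_zero]⟩ :
          ((minpoly ℚ x).rootSet Qb))
      exact ⟨i, j, hij, congrArg Subtype.val h⟩
    wlog hlt : i < j generalizing i j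
    · exact this j i hij.symm heq.symm (by omega)
    refine ⟨j - i, by omega, (σ ^ i).injective ?_⟩
    rw [← AlgEquiv.mul_apply, ← pow_add, show i + (j - i) = j by omega, heq]
  have hstep : ∀ n, (σ ^ (n + 1)) x = σ ((σ ^ n) x) := fun n => by rw [pow_succ', AlgEquiv.mul_apply]
  by_contra hne
  rcases lt_or_gt_of_ne hne with hlt | hgt
  · have h : ∀ n, 0 < n → A.valuation ((σ ^ n) x) < A.valuation x := by
      intro n hn
      induction n, hn using Nat.le_induction with
      | base => simpa using hlt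
      | succ n hn ih =>
        rw [hstep]
        exact (not_le.1 fun hc => not_le.2 ih ((hle _ _).1 hc)).trans hlt
    exact (h m hm).ne (by rw [hper])
  · have h : ∀ n, 0 < n → A.valuation x < A.valuation ((σ ^ n) x) := by
      intro n hn
      induction n, hn using Nat.le_induction with
      | base => simpa using hgt
      | succ n hn ih =>
        rw [hstep]
        exact hgt.trans (not_le.1 fun hc => not_le.2 ih ((hle _ _).1 hc))
    exact (h m hm).ne (by rw [hper])

/-- The value group of the inertia field is generated by `v(q)`. -/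
theorem exists_zpow_of_inertia_fixed (hq : q.Prime) (hA : A.LiesOverPrime q) {x : Qb}
    (hx : x ≠ 0) (hfix : ∀ σ ∈ A.inertiaSubgroupIn ℚ, σ x = x) :
    ∃ k : ℤ, A.valuation x = A.valuation (q : Qb) ^ k := by
  let L : IntermediateField ℚ Qb :=
    IntermediateField.normalClosure ℚ (IntermediateField.adjoin ℚ {x}) Qb
  have : FiniteDimensional ℚ (IntermediateField.adjoin ℚ {x}) :=
    IntermediateField.adjoin.finiteDimensional (Algebra.IsIntegral.isIntegral x)
  have hxL : x ∈ L :=
    IntermediateField.le_normalClosure _ (IntermediateField.mem_adjoin_simple_self ℚ x)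
  have : NumberField L := { }
  have : Normal ℚ L := normalClosure.normal ℚ (IntermediateField.adjoin ℚ {x}) Qb
  have : IsGalois ℚ L := isGalois_iff.2 ⟨inferInstance, inferInstance⟩
  let B : ValuationSubring L := A.comap (algebraMap L Qb)
  have hBmem : ∀ z : L, z ∈ B.nonunits ↔ (z : Qb) ∈ A.nonunits := by
    intro z
    rw [B.mem_nonunits_iff, A.mem_nonunits_iff, ← not_le, ← not_le]
    rcases eq_or_ne z 0 with rfl | hz
    · simp
    have hz' : (z : Qb) ≠ 0 := by simpa using hz
    rw [← inv_le_one₀ (zero_lt_iff.2 (B.valuation.ne_zero_iff.2 hz)), ← map_inv₀,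
      ← inv_le_one₀ (zero_lt_iff.2 (A.valuation.ne_zero_iff.2 hz')), ← map_inv₀,
      B.valuation_le_one_iff, A.valuation_le_one_iff]
    rfl
  have hBone : ∀ z : L, B.valuation z = 1 → A.valuation (z : Qb) = 1 := by
    intro z hz
    refine le_antisymm ((A.valuation_le_one_iff _).2 ((B.valuation_le_one_iff z).1 hz.le))
      (not_lt.1 fun h => ?_)
    have := B.mem_nonunits_iff.1 ((hBmem z).2 (A.mem_nonunits_iff.2 h))
    rw [hz] at this
    exact lt_irrefl _ this
  obtain ⟨k, hk⟩ := Inertia.exists_zpow_of_fixed (L := L) B hq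
    ((hBmem _).2 (by simpa [ValuationSubring.LiesOverPrime] using hA))
    (x := ⟨x, hxL⟩) (by simpa [Subtype.ext_iff] using hx)
    (fun τ hτ => by
      obtain ⟨σ, hσ, rfl⟩ := Galois.exists_mem_inertia_restrict L A hq hA (g := τ) fun y => by
        change τ • y - y ∈ Galois.placePrime L A
        rw [Galois.mem_placePrime_iff]
        exact (hBmem _).1 (hτ y)
      apply Subtype.ext
      exact (AlgEquiv.restrictNormal_commutes σ L ⟨x, hxL⟩).trans (hfix σ hσ))
  refine ⟨k, ?_⟩
  have hq0 : (q : L) ≠ 0 := Nat.cast_ne_zero.2 hq.ne_zero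
  have hu : B.valuation ((⟨x, hxL⟩ : L) / (q : L) ^ k) = 1 := by
    rw [map_div₀, map_zpow₀, hk, div_self (zpow_ne_zero k (B.valuation.ne_zero_iff.2 hq0))]
  have h1 := hBone _ hu
  rw [show (((⟨x, hxL⟩ : L) / (q : L) ^ k : L) : Qb) = x / (q : Qb) ^ k by
    change L.val ((⟨x, hxL⟩ : L) / (q : L) ^ k) = _
    rw [map_div₀, map_zpow₀, map_natCast]
    rfl, map_div₀, map_zpow₀,
    div_eq_one_iff_eq (zpow_ne_zero k (valuation_natCast_ne_zero hq))] at h1
  exact h1

/-- A radical `b` with `v(b)^p = v(q)^n`, `p ∤ n`, is moved by inertia to `ζ b` with `ζ ≢ 1`. -/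
theorem exists_mem_inertia_valuation_div_sub_one (hq : q.Prime) (hA : A.LiesOverPrime q) {p : ℕ}
    (hp : p.Prime) (hpq : p ≠ q) {b : Qb} (hb : b ≠ 0) {n : ℤ}
    (hval : A.valuation b ^ p = A.valuation (q : Qb) ^ n) (hpn : ¬ (p : ℤ) ∣ n)
    (hfix : ∀ σ ∈ A.inertiaSubgroupIn ℚ, σ (b ^ p) = b ^ p) :
    ∃ σ ∈ A.inertiaSubgroupIn ℚ, σ b ≠ b ∧ (σ b / b) ^ p = 1 ∧
      A.valuation (σ b / b - 1) = 1 := by
  obtain ⟨σ, hσ, hne⟩ : ∃ σ ∈ A.inertiaSubgroupIn ℚ, σ b ≠ b := by
    by_contra! hall
    obtain ⟨k, hk⟩ := exists_zpow_of_inertia_fixed hq hA hb hall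
    rw [hk, ← zpow_natCast, ← zpow_mul] at hval
    have hlog : k * (p : ℤ) = n :=
      zpow_right_injective₀ (zero_lt_iff.2 (valuation_natCast_ne_zero hq))
        (valuation_natCast_lt_one hA).ne hval
    exact hpn ⟨k, by rw [← hlog, mul_comm]⟩
  have hpow : (σ b / b) ^ p = 1 := by
    rw [div_pow, ← map_pow, hfix σ hσ, div_self (pow_ne_zero p hb)]
  refine ⟨σ, hσ, hne, hpow, ?_⟩
  set z := σ b / b with hz
  have hzA : z ∈ A := by
    rw [← A.valuation_le_one_iff, ← pow_le_one_iff hp.ne_zero, ← map_pow, hpow, map_one]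
  refine le_antisymm ((A.valuation_le_one_iff _).2 (sub_mem hzA (one_mem _))) (not_lt.1 fun hlt => ?_)
  have hres : residue A ⟨z, hzA⟩ = residue A 1 :=
    (Inertia.residue_eq_iff_sub_mem_nonunits A).2 (A.mem_nonunits_iff.2 hlt)
  have hp0 : (p : ResidueField A) ≠ 0 := by
    rw [← map_natCast (residue A), Ne, residue_eq_zero_iff,
      ← ValuationSubring.coe_mem_nonunits_iff]
    intro h
    have h1 := (Galois.intCast_mem_nonunits_iff A hq hA (p : ℤ)).1 (by simpa using h)
    exact hpq ((Nat.prime_dvd_prime_iff_eq hq hp).1 (Int.natCast_dvd_natCast.1 h1)).symm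
  have := Inertia.eq_of_isRoot_of_residue_eq A (Polynomial.X ^ p - 1) (a := ⟨z, hzA⟩) (b := 1)
    (by simp [Polynomial.IsRoot.def, Subtype.ext_iff, hpow]) (by simp [Polynomial.IsRoot.def])
    hres (by simp [Polynomial.derivative_X_pow, hres, hp0])
  exact hne ((div_eq_one_iff_eq hb).1 (congrArg Subtype.val this))

/-- The residue of an element fixed by the decomposition group lies in the prime field. -/
theorem exists_residue_eq_natCast (hq : q.Prime) (hA : A.LiesOverPrime q) {x : Qb} (hx : x ∈ A)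
    (hfix : ∀ σ ∈ A.decompositionSubgroup ℚ, σ x = x) :
    ∃ r : ℕ, r < q ∧ residue A ⟨x, hx⟩ = (r : ResidueField A) := by
  have : Fact q.Prime := ⟨hq⟩
  have : CharP (ResidueField A) q := by
    refine (CharP.charP_iff_prime_eq_zero hq).2 ?_
    rw [← map_natCast (residue A), residue_eq_zero_iff, ← ValuationSubring.coe_mem_nonunits_iff]
    simpa [ValuationSubring.LiesOverPrime] using hA
  obtain ⟨σ, hσd, hσ⟩ := Galois.exists_isFrobeniusAt A hq hA
  have hpow : residue A ⟨x, hx⟩ ^ q = residue A ⟨x, hx⟩ := by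
    rw [← hσ, ← IsLocalRing.ResidueField.residue_smul]
    congr 1
    exact Subtype.ext (hfix σ hσd)
  obtain ⟨r, hr⟩ : residue A ⟨x, hx⟩ ∈
      Set.range (ZMod.castHom (dvd_refl q) (ResidueField A)) := by
    by_contra hnot
    classical
    let S : Finset (ResidueField A) :=
      insert (residue A ⟨x, hx⟩) (Finset.univ.image (ZMod.castHom (dvd_refl q) (ResidueField A)))
    have hcard : S.card = q + 1 := by
      rw [Finset.card_insert_of_notMem (by simpa using fun r hr => hnot ⟨r, hr⟩),
        Finset.card_image_of_injective _ (ZMod.castHom (dvd_refl q) (ResidueField A)).injective,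
        Finset.card_univ, ZMod.card]
    have hroot : S.val ⊆ (Polynomial.X ^ q - Polynomial.X : Polynomial (ResidueField A)).roots := by
      intro a ha
      rw [Polynomial.mem_roots (FiniteField.X_pow_card_sub_X_ne_zero _ hq.one_lt)]
      rcases Finset.mem_insert.1 ha with rfl | ha
      · simp [Polynomial.IsRoot.def, hpow]
      · obtain ⟨r, -, rfl⟩ := Finset.mem_image.1 ha
        rw [Polynomial.IsRoot.def, Polynomial.eval_sub, Polynomial.eval_pow, Polynomial.eval_X,
          ← map_pow, ZMod.pow_card, sub_self]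
    have h1 := Polynomial.card_le_degree_of_subset_roots hroot
    rw [hcard, FiniteField.X_pow_card_sub_X_natDegree_eq _ hq.one_lt] at h1
    omega
  exact ⟨r.val, r.val_lt, by rw [← hr, ← map_natCast (ZMod.castHom (dvd_refl q) (ResidueField A)),
    ZMod.natCast_zmod_val]⟩

end Fermat.Agent.EC.Mult
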