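import Fermat.Agent.EC.Mult.Qbar
import Fermat.Agent.EC.Mult.Ramification
import Fermat.Agent.EC.Torsion.Count

/-!
# The inertia-fixed line at a multiplicative prime

For an integral model `W`, a multiplicative prime `q`, a place `A` of `ℚ̄` over `q` and a prime
`p ≠ q`: the `p`-torsion on the identity component is a line fixed by inertia, and if
`p ∤ ord_q Δ` some element of inertia fixes exactly this line.
-/

set_option autoImplicit false

noncomputable section

open IsLocalRing WeierstrassCurve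
open scoped WeierstrassCurve.Affine

namespace Fermat.Agent.EC.Mult

open TateTheta

local notation "Qb" => AlgebraicClosure ℚ

variable {W : WeierstrassCurve ℤ} {A : ValuationSubring (AlgebraicClosure ℚ)} {q p : ℕ}

namespace MultData

variable (D : MultData W A)

lemma isElliptic_tateModel : (tateModel D.c).IsElliptic := by
  refine ⟨isUnit_iff_ne_zero.mpr ?_⟩
  rw [Δ_tateModel, mul_ne_zero_iff]
  refine ⟨neg_ne_zero.mpr D.hc0, fun h => ?_⟩
  have h432 : A.valuation (432 * D.c) < 1 := by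
    rw [map_mul]
    exact (mul_le_of_le_one_left zero_le
      (by exact_mod_cast natCast_valuation_le 432)).trans_lt D.hc
  have := congrArg A.valuation h
  rw [A.valuation.map_add_eq_of_lt_left (by rwa [map_one]), map_one, map_zero] at this
  exact one_ne_zero this

lemma natCard_torsion (hp : p.Prime) :
    Nat.card {R : (tateModel D.c).toAffine.Point // p • R = 0} = p ^ 2 := by
  have : (tateModel D.c).toAffine.IsElliptic := D.isElliptic_tateModel
  rw [← natCard_torsionBy (tateModel D.c).toAffine (n := p) (Nat.cast_ne_zero.mpr hp.ne_zero)]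
  refine Nat.card_congr (Equiv.subtypeEquivRight fun R => ?_)
  rw [Submodule.mem_torsionBy_iff, natCast_zsmul]

/-- The point lies on the identity component of the normal form. -/
def OnE0 (P : ((W.map (Int.castRingHom ℚ))⁄Qb).Point) : Prop := IsE0 A (D.equiv.symm P)

/-- The `p`-torsion on the identity component has order `p`. -/
theorem natCard_onE0 (hp : p.Prime) (hpk : (p : ResidueField A) ≠ 0) :
    Nat.card {P : ((W.map (Int.castRingHom ℚ))⁄Qb).Point // p • P = 0 ∧ D.OnE0 P} = p := by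
  refine Eq.trans (Nat.card_congr (Equiv.subtypeEquiv D.equiv.symm.toEquiv fun P => ?_))
    (card_isE0_torsion D.hc0 D.hc hp hpk (D.natCard_torsion hp))
  show p • P = 0 ∧ D.OnE0 P ↔ p • D.equiv.symm P = 0 ∧ IsE0 A (D.equiv.symm P)
  rw [← map_nsmul, map_eq_zero_iff _ D.equiv.symm.injective]
  rfl

variable {σ : AlgebraicClosure ℚ ≃ₐ[ℚ] AlgebraicClosure ℚ}

/-- Inertia fixes prime-to-`q` torsion on the identity component. -/
theorem smul_eq_self_of_onE0 (hσ : σ ∈ A.inertiaSubgroupIn ℚ) {n : ℕ}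
    (hn : (n : ResidueField A) ≠ 0) {P : ((W.map (Int.castRingHom ℚ))⁄Qb).Point}
    (hP : n • P = 0) (hE0 : D.OnE0 P) : σ • P = P := by
  obtain ⟨Q, rfl⟩ := D.equiv.surjective P
  have hQ : n • Q = 0 := D.equiv.injective (by rw [map_nsmul, hP, map_zero])
  rw [OnE0, AddEquiv.symm_apply_apply] at hE0
  rw [← D.equiv_mapPt hσ,
    mapPt_eq_self_of_isE0 D.hc0 σ.toRingEquiv (res hσ) (D.fixed hσ).2 D.hc hn hQ hE0]

/-- `σ P - P` lies on the identity component. -/
theorem onE0_smul_sub (hσ : σ ∈ A.inertiaSubgroupIn ℚ) {n : ℕ} (hn : n ≠ 0)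
    {P : ((W.map (Int.castRingHom ℚ))⁄Qb).Point} (hP : n • P = 0) : D.OnE0 (σ • P - P) := by
  obtain ⟨Q, rfl⟩ := D.equiv.surjective P
  have hQ : n • Q = 0 := D.equiv.injective (by rw [map_nsmul, hP, map_zero])
  rw [OnE0, ← D.equiv_mapPt hσ, ← map_sub, AddEquiv.symm_apply_apply]
  exact isE0_mapPt_sub D.hc0 σ.toRingEquiv (res hσ) (D.fixed hσ).2 D.hc hn hQ

include D in
/-- If `p ∤ ord_q Δ`, some element of inertia moves a `p`-torsion point and fixes only the
`p`-torsion on the identity component. -/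
theorem exists_moving (hq : q.Prime) (hA : A.LiesOverPrime q) (hΔ0 : W.Δ ≠ 0) (hp : p.Prime)
    (hpq : p ≠ q) (hv : ¬ p ∣ padicValInt q W.Δ) :
    ∃ σ ∈ A.inertiaSubgroupIn ℚ,
      (∃ P : ((W.map (Int.castRingHom ℚ))⁄Qb).Point, p • P = 0 ∧ σ • P ≠ P) ∧
      ∀ R : ((W.map (Int.castRingHom ℚ))⁄Qb).Point, p • R = 0 → σ • R = R → D.OnE0 R := by
  have hpk : (p : ResidueField A) ≠ 0 := natCast_residue_ne_zero A hq hA
    (fun h => hpq ((Nat.prime_dvd_prime_iff_eq hq hp).1 h).symm)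
  obtain ⟨P, b, hP, hb, hθ⟩ :=
    exists_thetaFun_eq_cl_root D.hc0 D.hc hp hpk (D.natCard_torsion hp)
  have hb0 : b ≠ 0 := by
    rintro rfl
    rw [zero_pow hp.ne_zero] at hb
    exact neg_ne_zero.mpr D.hc0 hb.symm
  have hval : A.valuation b ^ p = A.valuation (q : Qb) ^ ((padicValInt q W.Δ : ℕ) : ℤ) := by
    rw [← map_pow, hb, A.valuation.map_neg, D.hvc, zpow_natCast, valuation_intCast hq hA hΔ0]
  obtain ⟨σ, hσ, -, -, hσb⟩ := exists_mem_inertia_valuation_div_sub_one hq hA hp hpq hb0 hval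
    (by exact_mod_cast hv) (fun σ hσ => by
      have := (D.fixed hσ).2
      rw [hb, map_neg]
      exact congrArg Neg.neg this)
  refine ⟨σ, hσ, ⟨D.equiv P, ?_, ?_⟩, ?_⟩
  · rw [← map_nsmul, hP, map_zero]
  · rw [← D.equiv_mapPt hσ]
    exact fun h => mapPt_ne_self D.hc0 σ.toRingEquiv (res hσ) (D.fixed hσ).2 D.hc hp.ne_zero hb hθ
      hσb (D.equiv.injective h)
  · intro R hR hfix
    obtain ⟨Q, rfl⟩ := D.equiv.surjective R
    have hQ : p • Q = 0 := D.equiv.injective (by rw [map_nsmul, hR, map_zero])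
    rw [← D.equiv_mapPt hσ] at hfix
    rw [OnE0, AddEquiv.symm_apply_apply]
    exact isE0_of_mapPt_eq_self D.hc0 σ.toRingEquiv (res hσ) (D.fixed hσ).2 D.hc hp hpk hP hb hθ
      hσb hQ (D.equiv.injective hfix)

/-- If `p ∤ ord_q Δ`, the inertia invariants of `E[p]` are its points on the identity component. -/
theorem forall_smul_eq_iff_onE0 (hq : q.Prime) (hA : A.LiesOverPrime q) (hΔ0 : W.Δ ≠ 0)
    (hp : p.Prime) (hpq : p ≠ q) (hv : ¬ p ∣ padicValInt q W.Δ)
    {R : ((W.map (Int.castRingHom ℚ))⁄Qb).Point} (hR : p • R = 0) :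
    (∀ σ ∈ A.inertiaSubgroupIn ℚ, σ • R = R) ↔ D.OnE0 R := by
  have hpk : (p : ResidueField A) ≠ 0 := natCast_residue_ne_zero A hq hA
    (fun h => hpq ((Nat.prime_dvd_prime_iff_eq hq hp).1 h).symm)
  refine ⟨fun h => ?_, fun h σ hσ => D.smul_eq_self_of_onE0 hσ hpk hR h⟩
  obtain ⟨σ, hσ, -, hfix⟩ := D.exists_moving hq hA hΔ0 hp hpq hv
  exact hfix R hR (h σ hσ)

end MultData

/-! ### Statements on `E[p]` -/

section torsion

set_option quotPrecheck false in
local notation "Ep" => ↥(Submodule.torsionBy ℤ (Affine.Point ((W.map (Int.castRingHom ℚ))⁄Qb)) (p : ℤ))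

private lemma nsmul_coe (x : Ep) :
    p • (x : ((W.map (Int.castRingHom ℚ))⁄Qb).Point) = 0 := by
  rw [← natCast_zsmul]; exact (Submodule.mem_torsionBy_iff _ _).1 x.2

private lemma natCard_subtype_torsionBy (S : ((W.map (Int.castRingHom ℚ))⁄Qb).Point → Prop) :
    Nat.card {x : Ep // S x} =
      Nat.card {P : ((W.map (Int.castRingHom ℚ))⁄Qb).Point // p • P = 0 ∧ S P} :=
  Nat.card_congr
    { toFun := fun x => ⟨x.1.1, nsmul_coe x.1, x.2⟩
      invFun := fun P => ⟨⟨P.1, (Submodule.mem_torsionBy_iff _ _).2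
        (by rw [natCast_zsmul]; exact P.2.1)⟩, P.2.2⟩
      left_inv := fun _ => rfl
      right_inv := fun _ => rfl }

variable (hq : q.Prime) (hA : A.LiesOverPrime q) (hΔ0 : W.Δ ≠ 0) (hΔ : (q : ℤ) ∣ W.Δ)
  (hc4 : ¬ (q : ℤ) ∣ W.c₄) (hp : p.Prime) (hpq : p ≠ q)

include hq hA hΔ0 hΔ hc4 hp hpq in
/-- `E[p]` has a line fixed pointwise by inertia at a multiplicative prime. -/
theorem exists_inertia_fixed_line :
    ∃ N : Submodule (ZMod p) Ep, Nat.card N = p ∧
      (∀ σ ∈ A.inertiaSubgroupIn ℚ, ∀ x ∈ N, σ • x = x) ∧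
      ∀ σ ∈ A.inertiaSubgroupIn ℚ, ∀ x : Ep, σ • x - x ∈ N := by
  obtain ⟨D⟩ := nonempty_multData hq hA hΔ0 hΔ hc4
  have hpk : (p : ResidueField A) ≠ 0 := natCast_residue_ne_zero A hq hA
    (fun h => hpq ((Nat.prime_dvd_prime_iff_eq hq hp).1 h).symm)
  let H : AddSubgroup Ep := AddSubgroup.ofSub {x : Ep | D.OnE0 x}
    ⟨0, by simp [MultData.OnE0, TateTheta.IsE0]⟩ fun {x} hx {y} hy => by
      have := IsE0.sub (A := A) D.hc hx hy D.hc0
      show IsE0 A (D.equiv.symm ((x : Ep).1 + -(y : Ep).1))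
      rw [← sub_eq_add_neg, map_sub]
      exact this
  refine ⟨AddSubgroup.toZModSubmodule p H, ?_, ?_, ?_⟩
  · exact (natCard_subtype_torsionBy (fun P => D.OnE0 P)).trans (D.natCard_onE0 hp hpk)
  · intro σ hσ x hx
    exact Subtype.ext (D.smul_eq_self_of_onE0 hσ hpk (nsmul_coe x) hx)
  · intro σ hσ x
    exact D.onE0_smul_sub hσ hp.ne_zero (nsmul_coe x)

include hq hA hΔ0 hΔ hc4 hp hpq in
/-- If `p ∤ ord_q Δ`, inertia at `q` moves a `p`-torsion point. -/
theorem exists_inertia_moving (hv : ¬ p ∣ padicValInt q W.Δ) :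
    ∃ σ ∈ A.inertiaSubgroupIn ℚ, ∃ x : Ep, σ • x ≠ x := by
  obtain ⟨D⟩ := nonempty_multData hq hA hΔ0 hΔ hc4
  obtain ⟨σ, hσ, ⟨P, hP, hne⟩, -⟩ := D.exists_moving hq hA hΔ0 hp hpq hv
  exact ⟨σ, hσ, ⟨P, (Submodule.mem_torsionBy_iff _ _).2 (by rw [natCast_zsmul]; exact hP)⟩,
    fun h => hne (congrArg Subtype.val h)⟩

include hq hA hΔ0 hΔ hc4 hp hpq in
/-- If `p ∤ ord_q Δ`, the inertia invariants of `E[p]` form a group of order `p`, already cut out
by a single element of inertia. -/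
theorem natCard_inertia_fixed (hv : ¬ p ∣ padicValInt q W.Δ) :
    Nat.card {x : Ep // ∀ σ ∈ A.inertiaSubgroupIn ℚ, σ • x = x} = p ∧
      ∃ τ ∈ A.inertiaSubgroupIn ℚ, ∀ x : Ep, τ • x = x →
        ∀ σ ∈ A.inertiaSubgroupIn ℚ, σ • x = x := by
  obtain ⟨D⟩ := nonempty_multData hq hA hΔ0 hΔ hc4
  have hpk : (p : ResidueField A) ≠ 0 := natCast_residue_ne_zero A hq hA
    (fun h => hpq ((Nat.prime_dvd_prime_iff_eq hq hp).1 h).symm)
  obtain ⟨τ, hτ, -, hfix⟩ := D.exists_moving hq hA hΔ0 hp hpq hv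
  refine ⟨?_, τ, hτ, fun x hx σ hσ => Subtype.ext (D.smul_eq_self_of_onE0 hσ hpk (nsmul_coe x)
    (hfix _ (nsmul_coe x) (congrArg Subtype.val hx)))⟩
  refine Eq.trans ?_ ((natCard_subtype_torsionBy (fun P => D.OnE0 P)).trans (D.natCard_onE0 hp hpk))
  refine Nat.card_congr (Equiv.subtypeEquiv (Equiv.refl _) fun x => ?_)
  refine Iff.trans ?_ (D.forall_smul_eq_iff_onE0 hq hA hΔ0 hp hpq hv (nsmul_coe x))
  exact forall₂_congr fun σ _ => Subtype.ext_iff

end torsion

end Fermat.Agent.EC.Mult
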