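import Fermat.Agent.EC.Mult.Qbar
import Fermat.Agent.EC.Mult.Ramification

/-!
# The identity component at a multiplicative place

The isomorphism with the normal form preserves the kernel of reduction and the identity component.
Consequences: a `p`-torsion point fixed by inertia lies on the identity component when
`p ∤ ord_q Δ`, and at residue characteristic `p` inertia moves `p`-torsion inside the kernel of
reduction.
-/

set_option autoImplicit false

noncomputable section

open IsLocalRing WeierstrassCurve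
open scoped WeierstrassCurve.Affine

namespace Fermat.Agent.EC.Mult

open TateTheta

local notation "Qb" => AlgebraicClosure ℚ

lemma tateModel_zero_nonsingular_iff {k : Type*} [Field k] {x y : k}
    (h : (tateModel (0 : k)).toAffine.Equation x y) :
    (tateModel (0 : k)).toAffine.Nonsingular x y ↔ x ≠ 0 := by
  rw [Affine.nonsingular_iff, tateModel_equation_iff]
  rw [tateModel_equation_iff] at h
  simp only [tateModel, one_mul, zero_mul, mul_zero, add_zero, sub_zero]
  constructor
  · rintro ⟨-, hd⟩ rfl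
    have hy : y = 0 := by simpa using h
    subst hy
    simp at hd
  · refine fun hx => ⟨by linear_combination h, ?_⟩
    by_contra hd
    simp only [not_or, not_not] at hd
    obtain ⟨h1, h2⟩ := hd
    have h2' : 2 * y + x = 0 := by linear_combination h2
    have h1' : y = 3 * x ^ 2 := by linear_combination h1
    subst h1'
    have h6 : 6 * x + 1 = 0 :=
      (mul_eq_zero.mp (show x * (6 * x + 1) = 0 by linear_combination h2')).resolve_left hx
    have h9 : (9 * x + 1) * x ^ 3 = 0 := by
      linear_combination -h + 3 * x ^ 2 * h2'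
    have h9' : 9 * x + 1 = 0 := (mul_eq_zero.mp h9).resolve_right (pow_ne_zero 3 hx)
    exact one_ne_zero (show (1 : k) = 0 by linear_combination 3 * h6 - 2 * h9')

variable {W : WeierstrassCurve ℤ} {A : ValuationSubring (AlgebraicClosure ℚ)} {q : ℕ}

namespace MultData

variable (D : MultData W A)

lemma equiv_some {x y : Qb} (h : (tateModel D.c).toAffine.Nonsingular x y) :
    D.equiv (.some x y h) = .some (vcX D.C x) (vcY D.C x y)
      ((vc_nonsingular_iff (W := (curveQbar W).toAffine) (W' := (tateModel D.c).toAffine)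
        D.hC x y).mpr h) :=
  rfl

lemma vcX_mem_iff (x : Qb) : vcX D.C x ∈ A ↔ x ∈ A := by
  have h : (D.C.u : Qb) ^ 2 * x ∈ A ↔ x ∈ A := by
    rw [← A.valuation_le_one_iff, map_mul, map_pow, D.hu, one_pow, one_mul,
      A.valuation_le_one_iff]
  refine ⟨fun hX => h.mp ?_, fun hx => add_mem (h.mpr hx) D.hr⟩
  simpa [vcX] using sub_mem hX D.hr

/-- The integral change of variables. -/
def intC : VariableChange A where
  u :=
    { val := ⟨D.C.u, (A.valuation_le_one_iff _).mp D.hu.le⟩
      inv := ⟨(D.C.u⁻¹ : Qbˣ), (A.valuation_le_one_iff _).mp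
        (by rw [Units.val_inv_eq_inv_val, map_inv₀, D.hu, inv_one])⟩
      val_inv := Subtype.ext (Units.mul_inv _)
      inv_val := Subtype.ext (Units.inv_mul _) }
  r := ⟨D.C.r, D.hr⟩
  s := ⟨D.C.s, D.hs⟩
  t := ⟨D.C.t, D.ht⟩

lemma intC_map : D.intC.map A.subtype = D.C := by
  ext <;> rfl

lemma intC_smul : D.intC • W.map (Int.castRingHom A) =
    (⟨1, 0, 0, 0, ⟨D.c, (A.valuation_le_one_iff _).mp D.hc.le⟩⟩ : WeierstrassCurve A) := by
  apply map_injective (f := A.subtype) Subtype.val_injective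
  show (D.intC • W.map (Int.castRingHom A)).map A.subtype = _
  rw [← map_variableChange, D.intC_map,
    show (W.map (Int.castRingHom A)).map A.subtype = curveQbar W by ext <;> simp, D.hC]
  ext <;> simp [tateModel, WeierstrassCurve.map]

lemma residue_smul : D.intC.map (residue A) • W.map (Int.castRingHom (ResidueField A)) =
    tateModel 0 := by
  rw [show W.map (Int.castRingHom (ResidueField A)) =
      (W.map (Int.castRingHom A)).map (residue A) by ext <;> simp, map_variableChange,
    D.intC_smul]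
  ext <;> simp [tateModel, WeierstrassCurve.map]
  exact (ValuationSubring.valuation_lt_one_iff A _).mpr D.hc

lemma mem_y_of_mem_x {x y : Qb} (he : y * (y + x) = x ^ 3 + D.c) (hx : x ∈ A) : y ∈ A :=
  mem_of_sq_add (a := x) (b := -(x ^ 3 + D.c)) hx
    (neg_mem (add_mem (pow_mem hx 3) ((A.valuation_le_one_iff _).mp D.hc.le)))
    (by linear_combination he)

/-- The isomorphism preserves the kernel of reduction. -/
lemma equiv_not_mem_iff {x y X Y : Qb} (h : (tateModel D.c).toAffine.Nonsingular x y)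
    (h' : ((W.map (Int.castRingHom ℚ))⁄Qb).toAffine.Nonsingular X Y)
    (e : D.equiv (.some x y h) = .some X Y h') : X ∉ A ↔ x ∉ A := by
  rw [D.equiv_some, Affine.Point.some.injEq] at e
  rw [← e.1, D.vcX_mem_iff]

/-- The isomorphism preserves the identity component. -/
theorem inZeroComponentAt_equiv_iff (Q : (tateModel D.c).toAffine.Point) :
    W.InZeroComponentAt A (D.equiv Q) ↔ IsE0 A Q := by
  rcases Q with _ | ⟨x, y, h⟩
  · exact iff_of_true (Or.inl (map_zero D.equiv)) trivial
  rw [D.equiv_some]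
  show _ ↔ 1 ≤ A.valuation x
  by_cases hx : x ∈ A
  · have he := (tateModel_equation_iff D.c x y).mp h.left
    have hy : y ∈ A := D.mem_y_of_mem_x he hx
    have hX : vcX D.C x ∈ A := (D.vcX_mem_iff x).mpr hx
    have hY : vcY D.C x y ∈ A :=
      add_mem (add_mem (mul_mem (pow_mem ((A.valuation_le_one_iff _).mp D.hu.le) 3) hy)
        (mul_mem (mul_mem (pow_mem ((A.valuation_le_one_iff _).mp D.hu.le) 2) D.hs) hx)) D.ht
    have heq : (tateModel (0 : ResidueField A)).toAffine.Equation
        (residue A ⟨x, hx⟩) (residue A ⟨y, hy⟩) := by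
      rw [tateModel_equation_iff, add_zero, ← map_add, ← map_mul, ← map_pow, ← sub_eq_zero,
        ← map_sub, residue_eq_zero_iff]
      refine (ValuationSubring.valuation_lt_one_iff A _).mpr ?_
      push_cast
      rw [he, add_sub_cancel_left]
      exact D.hc
    have hns : (W.map (Int.castRingHom (ResidueField A))).toAffine.Nonsingular
        (residue A ⟨vcX D.C x, hX⟩) (residue A ⟨vcY D.C x y, hY⟩) ↔
          residue A ⟨x, hx⟩ ≠ 0 := by
      rw [← tateModel_zero_nonsingular_iff heq, ← vc_nonsingular_iff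
        (W := (W.map (Int.castRingHom (ResidueField A))).toAffine) D.residue_smul]
      have eX : residue A ⟨vcX D.C x, hX⟩ =
          vcX (D.intC.map (residue A)) (residue A ⟨x, hx⟩) := by
        simp only [vcX, VariableChange.map, Units.coe_map, MonoidHom.coe_coe, ← map_pow,
          ← map_mul, ← map_add]
        exact congrArg (residue A) (Subtype.ext (by simp [intC]))
      have eY : residue A ⟨vcY D.C x y, hY⟩ =
          vcY (D.intC.map (residue A)) (residue A ⟨x, hx⟩) (residue A ⟨y, hy⟩) := by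
        simp only [vcY, VariableChange.map, Units.coe_map, MonoidHom.coe_coe, ← map_pow,
          ← map_mul, ← map_add]
        exact congrArg (residue A) (Subtype.ext (by simp [intC]))
      rw [eX, eY]
    have hres : residue A ⟨x, hx⟩ ≠ 0 ↔ 1 ≤ A.valuation x := by
      rw [Ne, residue_eq_zero_iff]
      exact (not_congr (ValuationSubring.valuation_lt_one_iff A ⟨x, hx⟩)).trans not_lt
    rw [← hres, ← hns]
    constructor
    · rintro (h0 | ⟨X, Y, hXY, e, hh⟩)
      · exact absurd h0 (Affine.Point.some_ne_zero _)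
      · cases e
        rcases hh with hh | ⟨_, _, hh⟩
        · exact absurd hX hh
        · exact hh
    · exact fun hh => Or.inr ⟨_, _, _, rfl, Or.inr ⟨hX, hY, hh⟩⟩
  · refine iff_of_true (Or.inr ⟨_, _, _, rfl, Or.inl fun hX => hx ((D.vcX_mem_iff x).mp hX)⟩) ?_
    exact (not_le.mp fun h' => hx ((A.valuation_le_one_iff x).mp h')).le

include D in
/-- A `p`-torsion point fixed by inertia is on the identity component if `p ∤ ord_q Δ`. -/
theorem inZeroComponentAt_of_fixed (hq : q.Prime) (hA : A.LiesOverPrime q) (hΔ0 : W.Δ ≠ 0)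
    {p : ℕ} (hp : p.Prime) (hpN : ¬ p ∣ padicValInt q W.Δ)
    {P : ((W.map (Int.castRingHom ℚ))⁄Qb).Point} (hP : p • P = 0)
    (hfix : ∀ σ ∈ A.inertiaSubgroupIn ℚ, σ • P = P) : W.InZeroComponentAt A P := by
  obtain ⟨Q, rfl⟩ := D.equiv.surjective P
  have hQ : p • Q = 0 := D.equiv.injective (by rw [map_nsmul, hP, map_zero])
  rw [D.inZeroComponentAt_equiv_iff]
  have hθfix : ∀ σ ∈ A.inertiaSubgroupIn ℚ, σ (thetaPtVal A Q) = thetaPtVal A Q := by
    intro σ hσ
    have h : mapPt σ.toRingEquiv (D.fixed hσ).2 Q = Q :=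
      D.equiv.injective (by rw [D.equiv_mapPt hσ, hfix σ hσ])
    have h' := thetaPtVal_mapPt σ.toRingEquiv (res hσ) (D.fixed hσ).2 Q
    rw [h] at h'
    exact h'.symm
  obtain ⟨k, hk⟩ :=
    exists_zpow_of_inertia_fixed hq hA (thetaPtVal_ne_zero D.hc0 D.hc Q) hθfix
  exact isE0_of_not_dvd D.hc0 D.hc hp hpN hQ
    (D.hvc.trans (valuation_intCast hq hA hΔ0)) hk

include D in
/-- At residue characteristic `q`, inertia moves `q`-torsion inside the kernel of reduction. -/
theorem smul_sub_eq_zero_or_not_mem (hq : q.Prime) (hA : A.LiesOverPrime q)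
    {σ : AlgebraicClosure ℚ ≃ₐ[ℚ] AlgebraicClosure ℚ} (hσ : σ ∈ A.inertiaSubgroupIn ℚ)
    {P : ((W.map (Int.castRingHom ℚ))⁄Qb).Point} (hP : q • P = 0) :
    σ • P - P = 0 ∨ ∃ (X Y : Qb) (h : ((W.map (Int.castRingHom ℚ))⁄Qb).toAffine.Nonsingular X Y),
      σ • P - P = .some X Y h ∧ X ∉ A := by
  obtain ⟨Q, rfl⟩ := D.equiv.surjective P
  have hQ : q • Q = 0 := D.equiv.injective (by rw [map_nsmul, hP, map_zero])
  rw [← D.equiv_mapPt hσ, ← map_sub]
  have hθ : thetaFun A D.hc0 (mapPt σ.toRingEquiv (D.fixed hσ).2 Q - Q) = 1 := by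
    rw [thetaFun_mapPt_sub D.hc0 σ.toRingEquiv (res hσ) (D.fixed hσ).2 D.hc]
    refine cl_of_approx_one D.hc0 ?_
    set a := thetaPtVal A Q with ha
    have ha0 : a ≠ 0 := thetaPtVal_ne_zero D.hc0 D.hc Q
    set w := σ.toRingEquiv a / a with hw
    have hw1 : A.valuation w = 1 :=
      valuation_map_div_eq_one D.hc0 σ.toRingEquiv (res hσ) (D.fixed hσ).2 D.hc hq.ne_zero hQ
    have hwA : w ∈ A := (A.valuation_le_one_iff _).mp hw1.le
    obtain ⟨u, k, hu, hau⟩ := exists_pow_eq_of_torsion D.hc0 D.hc hQ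
    have huA : u ∈ A := (A.valuation_le_one_iff _).mp (valuation_of_approx_one hu).le
    have hu0 : u ≠ 0 := by rintro rfl; simp at hu
    have hwq : A.valuation (w ^ q - 1) < 1 := by
      rw [hw, div_pow, ← map_pow σ.toRingEquiv, ha, hau, map_mul σ.toRingEquiv,
        map_zpow₀ σ.toRingEquiv, map_neg σ.toRingEquiv, (D.fixed hσ).2,
        mul_div_mul_right _ _ (zpow_ne_zero k (neg_ne_zero.mpr D.hc0)), div_sub_one hu0,
        map_div₀, valuation_of_approx_one hu, div_one]
      exact res hσ u huA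
    have : CharP (ResidueField A) q := charP_residueField A hq hA
    have : Fact q.Prime := ⟨hq⟩
    have hres : residue A ⟨w, hwA⟩ = 1 := by
      apply frobenius_inj (ResidueField A) q
      rw [frobenius_def, frobenius_def, one_pow, ← map_pow, ← map_one (residue A), ← sub_eq_zero,
        ← map_sub, residue_eq_zero_iff]
      exact (ValuationSubring.valuation_lt_one_iff A _).mpr (by push_cast; exact hwq)
    rw [← map_one (residue A), ← sub_eq_zero, ← map_sub, residue_eq_zero_iff] at hres
    have := (ValuationSubring.valuation_lt_one_iff A _).mp hres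
    push_cast at this
    exact this
  rcases hR : mapPt σ.toRingEquiv (D.fixed hσ).2 Q - Q with _ | ⟨x, y, h⟩
  · exact Or.inl (map_zero D.equiv)
  · rw [hR] at hθ
    refine Or.inr ⟨_, _, _, D.equiv_some h, fun hX => ?_⟩
    exact (thetaFun_eq_one_iff D.hc0 D.hc h).mp hθ ((D.vcX_mem_iff x).mp hX)

end MultData

/-- At a multiplicative prime, `p`-torsion fixed by inertia lies on the identity component when
`p ∤ ord_q Δ`. -/
theorem inZeroComponentAt_of_inertia_fixed (hq : q.Prime) (hA : A.LiesOverPrime q)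
    (hΔ0 : W.Δ ≠ 0) (hΔ : (q : ℤ) ∣ W.Δ) (hc4 : ¬ (q : ℤ) ∣ W.c₄) {p : ℕ} (hp : p.Prime)
    (hpN : ¬ p ∣ padicValInt q W.Δ) {P : ((W.map (Int.castRingHom ℚ))⁄Qb).Point}
    (hP : p • P = 0) (hfix : ∀ σ ∈ A.inertiaSubgroupIn ℚ, σ • P = P) :
    W.InZeroComponentAt A P := by
  obtain ⟨D⟩ := nonempty_multData hq hA hΔ0 hΔ hc4
  exact D.inZeroComponentAt_of_fixed hq hA hΔ0 hp hpN hP hfix

/-- At a multiplicative prime `q`, inertia moves `q`-torsion inside the kernel of reduction. -/
theorem smul_sub_eq_zero_or_not_mem (hq : q.Prime) (hA : A.LiesOverPrime q)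
    (hΔ0 : W.Δ ≠ 0) (hΔ : (q : ℤ) ∣ W.Δ) (hc4 : ¬ (q : ℤ) ∣ W.c₄)
    {σ : AlgebraicClosure ℚ ≃ₐ[ℚ] AlgebraicClosure ℚ} (hσ : σ ∈ A.inertiaSubgroupIn ℚ)
    {P : ((W.map (Int.castRingHom ℚ))⁄Qb).Point} (hP : q • P = 0) :
    σ • P - P = 0 ∨ ∃ (X Y : Qb) (h : ((W.map (Int.castRingHom ℚ))⁄Qb).toAffine.Nonsingular X Y),
      σ • P - P = .some X Y h ∧ X ∉ A := by
  obtain ⟨D⟩ := nonempty_multData hq hA hΔ0 hΔ hc4
  exact D.smul_sub_eq_zero_or_not_mem hq hA hσ hP

end Fermat.Agent.EC.Mult
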