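import Fermat.Agent.EC.TateTheta
import Mathlib.AlgebraicGeometry.EllipticCurve.VariableChange
import Mathlib.FieldTheory.IsAlgClosed.Basic
import Mathlib.Tactic.LinearCombination

/-!
# Normal form at multiplicative reduction

An integral Weierstrass curve with `v(Δ) < 1` and `v(c₄) = 1` over an algebraically closed field
is isomorphic, by an integral change of variables, to `y² + xy = x³ + c` with `v(c) = v(Δ)`.
The change of variables and `c` are fixed by every automorphism which fixes the curve and acts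
trivially on residues.
-/

set_option autoImplicit false

noncomputable section

namespace Fermat.Agent.EC.Mult

open WeierstrassCurve TateTheta

variable {K : Type*} [Field K] (A : ValuationSubring K)

/-- All coefficients lie in `A`. -/
structure IntegralCoeffs (W : WeierstrassCurve K) : Prop where
  ha₁ : W.a₁ ∈ A
  ha₂ : W.a₂ ∈ A
  ha₃ : W.a₃ ∈ A
  ha₄ : W.a₄ ∈ A
  ha₆ : W.a₆ ∈ A

variable {A}

lemma natCast_valuation_le (n : ℕ) : A.valuation (n : K) ≤ 1 :=
  (A.valuation_le_one_iff _).mpr (natCast_mem A.toSubring n)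

lemma ofNat_mem (n : ℕ) [n.AtLeastTwo] : (OfNat.ofNat n : K) ∈ A :=
  natCast_mem A.toSubring n

lemma IntegralCoeffs.b₂_mem {W : WeierstrassCurve K} (hW : IntegralCoeffs A W) : W.b₂ ∈ A :=
  add_mem (pow_mem hW.ha₁ 2) (mul_mem (ofNat_mem 4) hW.ha₂)

lemma IntegralCoeffs.b₄_mem {W : WeierstrassCurve K} (hW : IntegralCoeffs A W) : W.b₄ ∈ A :=
  add_mem (mul_mem (ofNat_mem 2) hW.ha₄) (mul_mem hW.ha₁ hW.ha₃)

lemma mem_of_sq_add {a b x : K} (ha : a ∈ A) (hb : b ∈ A) (h : x ^ 2 + a * x + b = 0) :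
    x ∈ A := by
  by_contra hx
  rw [← A.valuation_le_one_iff, not_le] at hx
  have e : x ^ 2 = -(a * x + b) := by linear_combination h
  have h2 : A.valuation (x ^ 2) ≤ A.valuation x := by
    rw [e, A.valuation.map_neg]
    refine A.valuation.map_add_le ?_ (((A.valuation_le_one_iff b).mpr hb).trans hx.le)
    rw [map_mul]
    exact mul_le_of_le_one_left zero_le ((A.valuation_le_one_iff a).mpr ha)
  rw [map_pow, sq] at h2
  exact h2.not_gt (lt_mul_of_one_lt_right (zero_lt_one.trans hx) hx)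

lemma Δ_tateModel (c : K) : (tateModel c).Δ = -c * (1 + 432 * c) := by
  simp only [tateModel, WeierstrassCurve.Δ, b₂, b₄, b₆, b₈]
  ring

lemma c₄_tateModel (c : K) : (tateModel c).c₄ = 1 := by
  simp only [tateModel, WeierstrassCurve.c₄, b₂, b₄]
  ring

lemma c₆_tateModel (c : K) : (tateModel c).c₆ = -1 - 864 * c := by
  simp only [tateModel, WeierstrassCurve.c₆, b₂, b₄, b₆]
  ring

lemma valuation_u_eq_one {W : WeierstrassCurve K} (hc4 : A.valuation W.c₄ = 1)
    {C : VariableChange K} {c : K} (hC : C • W = tateModel c) :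
    A.valuation (C.u : K) = 1 := by
  have h := congrArg (fun W' => A.valuation W'.c₄) hC
  rw [variableChange_c₄, map_mul, hc4, mul_one, map_pow, c₄_tateModel, map_one,
    pow_eq_one_iff_of_nonneg zero_le (by norm_num : (4 : ℕ) ≠ 0), Units.val_inv_eq_inv_val, map_inv₀,
    inv_eq_one] at h
  exact h

section CharZero

variable [CharZero K]

omit [CharZero K] in
/-- The equations satisfied by a change of variables to normal form. -/
lemma eqs_of_normalForm {W : WeierstrassCurve K} {C : VariableChange K} {c : K}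
    (hC : C • W = tateModel c) :
    (C.u : K) = W.a₁ + 2 * C.s ∧ C.s ^ 2 + W.a₁ * C.s - (W.a₂ + 3 * C.r) = 0 ∧
      2 * C.t = -(W.a₃ + C.r * W.a₁) ∧ 6 * C.r ^ 2 + W.b₂ * C.r + W.b₄ = 0 := by
  have hu : ((C.u⁻¹ : Kˣ) : K) ≠ 0 := Units.ne_zero _
  have h1 := congrArg WeierstrassCurve.a₁ hC
  have h2 := congrArg WeierstrassCurve.a₂ hC
  have h3 := congrArg WeierstrassCurve.a₃ hC
  have hb := congrArg WeierstrassCurve.b₄ hC
  rw [variableChange_a₁] at h1
  rw [variableChange_a₂] at h2
  rw [variableChange_a₃] at h3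
  rw [variableChange_b₄] at hb
  simp only [tateModel, b₄, mul_zero, add_zero, mul_eq_zero, pow_eq_zero_iff', ne_eq, hu,
    false_and, false_or] at h1 h2 h3 hb
  refine ⟨?_, ?_, ?_, ?_⟩
  · have := congrArg ((C.u : K) * ·) h1
    simpa [← mul_assoc] using this.symm
  · linear_combination -h2
  · linear_combination h3
  · simp only [b₂, b₄] at hb ⊢
    linear_combination hb

/-- Change of variables to normal form from an integral root of `6 X² + b₂ X + b₄`. -/
lemma exists_of_root [IsAlgClosed K] {W : WeierstrassCurve K} (hW : IntegralCoeffs A W)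
    (hc4 : A.valuation W.c₄ = 1) {r : K} (hr : r ∈ A)
    (hroot : 6 * r ^ 2 + W.b₂ * r + W.b₄ = 0) :
    ∃ (C : VariableChange K) (c : K), C • W = tateModel c ∧ C.r = r ∧
      C.s ∈ A ∧ C.t ∈ A ∧ c ∈ A := by
  obtain ⟨z, hz⟩ := IsAlgClosed.exists_pow_nat_eq (W.a₁ ^ 2 + 4 * (W.a₂ + 3 * r)) two_pos
  set s := (z - W.a₁) / 2 with hs_def
  have hs : s ^ 2 + W.a₁ * s + -(W.a₂ + 3 * r) = 0 := by
    rw [hs_def]; field_simp; linear_combination hz
  have hsA : s ∈ A :=
    mem_of_sq_add hW.ha₁ (neg_mem (add_mem hW.ha₂ (mul_mem (ofNat_mem 3) hr))) hs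
  set u := W.a₁ + 2 * s with hu_def
  have husq : u ^ 2 = W.b₂ + 12 * r := by
    rw [hu_def, b₂]; linear_combination 4 * hs
  have hu4 : (u ^ 2) ^ 2 = W.c₄ := by
    rw [husq, c₄]; linear_combination 24 * hroot
  have hvu : A.valuation u = 1 := by
    have h := congrArg A.valuation hu4
    rw [hc4, map_pow, map_pow, ← pow_mul, pow_eq_one_iff_of_nonneg zero_le (by norm_num : 2 * 2 ≠ 0)] at h
    exact h
  have hu0 : u ≠ 0 := by
    intro h; rw [h, map_zero] at hvu; exact zero_ne_one hvu
  set t := -(W.a₃ + r * W.a₁) / 2 with ht_def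
  have ht : 2 * t = -(W.a₃ + r * W.a₁) := by rw [ht_def]; ring
  have ht1 : W.a₁ * t = 3 * r ^ 2 + 2 * W.a₂ * r + W.a₄ := by
    have : (2 : K) * (W.a₁ * t - (3 * r ^ 2 + 2 * W.a₂ * r + W.a₄)) = 0 := by
      simp only [b₂, b₄] at hroot
      linear_combination W.a₁ * ht - hroot
    exact sub_eq_zero.mp ((mul_eq_zero.mp this).resolve_left two_ne_zero)
  have htA : t ∈ A := by
    have e : u ^ 2 * t = W.a₁ * (3 * r ^ 2 + 2 * W.a₂ * r + W.a₄) +
        (2 * W.a₂ + 6 * r) * -(W.a₃ + r * W.a₁) := by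
      rw [husq, b₂]; linear_combination W.a₁ * ht1 + (2 * W.a₂ + 6 * r) * ht
    have hmem : u ^ 2 * t ∈ A := by
      rw [e]
      exact add_mem
        (mul_mem hW.ha₁ (add_mem (add_mem (mul_mem (ofNat_mem 3) (pow_mem hr 2))
          (mul_mem (mul_mem (ofNat_mem 2) hW.ha₂) hr)) hW.ha₄))
        (mul_mem (add_mem (mul_mem (ofNat_mem 2) hW.ha₂) (mul_mem (ofNat_mem 6) hr))
          (neg_mem (add_mem hW.ha₃ (mul_mem hr hW.ha₁))))
    rw [← A.valuation_le_one_iff] at hmem ⊢
    rwa [map_mul, map_pow, hvu, one_pow, one_mul] at hmem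
  let C : VariableChange K := ⟨Units.mk0 u hu0, r, s, t⟩
  have hC : C • W = tateModel (C • W).a₆ := by
    ext
    · rw [variableChange_a₁]
      simp [C, tateModel, hu_def, Units.val_inv_eq_inv_val]
      exact inv_mul_cancel₀ hu0
    · rw [variableChange_a₂]
      simp only [C, tateModel, mul_eq_zero]
      right; linear_combination -hs
    · rw [variableChange_a₃]
      simp only [C, tateModel, mul_eq_zero]
      right; linear_combination ht
    · rw [variableChange_a₄]
      simp only [C, tateModel, mul_eq_zero]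
      right; linear_combination -ht1 - s * ht
    · rfl
  refine ⟨C, _, hC, rfl, hsA, htA, ?_⟩
  rw [variableChange_a₆, ← A.valuation_le_one_iff, map_mul, map_pow, Units.val_inv_eq_inv_val,
    map_inv₀, show A.valuation (C.u : K) = 1 from hvu, inv_one, one_pow, one_mul,
    A.valuation_le_one_iff]
  exact sub_mem (sub_mem (sub_mem (add_mem (add_mem (add_mem hW.ha₆ (mul_mem hr hW.ha₄))
    (mul_mem (pow_mem hr 2) hW.ha₂)) (pow_mem hr 3)) (mul_mem htA hW.ha₃)) (pow_mem htA 2))
    (mul_mem (mul_mem hr htA) hW.ha₁)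

lemma exists_root [IsAlgClosed K] {W : WeierstrassCurve K} (hW : IntegralCoeffs A W)
    (hc4 : A.valuation W.c₄ = 1) :
    ∃ r ∈ A, 6 * r ^ 2 + W.b₂ * r + W.b₄ = 0 := by
  obtain ⟨z, hz⟩ := IsAlgClosed.exists_pow_nat_eq (W.b₂ ^ 2 - 24 * W.b₄) two_pos
  set r₁ := (z - W.b₂) / 12 with hr₁
  have h1 : 6 * r₁ ^ 2 + W.b₂ * r₁ + W.b₄ = 0 := by
    rw [hr₁]; linear_combination (1 / 24 : K) * hz
  by_cases hr : r₁ ∈ A
  · exact ⟨r₁, hr, h1⟩
  rw [← A.valuation_le_one_iff, not_le] at hr
  have hprod : A.valuation r₁ * A.valuation (6 * r₁ + W.b₂) ≤ 1 := by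
    rw [← map_mul, show r₁ * (6 * r₁ + W.b₂) = -W.b₄ by linear_combination h1,
      A.valuation.map_neg]
    exact (A.valuation_le_one_iff _).mpr hW.b₄_mem
  have hsmall : A.valuation (6 * r₁ + W.b₂) < 1 := by
    by_contra h
    rw [not_lt] at h
    exact hprod.not_gt (hr.trans_le (le_mul_of_one_le_right zero_le h))
  have hsq : A.valuation (W.b₂ + 12 * r₁) = 1 := by
    have e : (W.b₂ + 12 * r₁) ^ 2 = W.c₄ := by rw [c₄]; linear_combination 24 * h1
    have h := congrArg A.valuation e
    rwa [hc4, map_pow, pow_eq_one_iff_of_nonneg zero_le two_ne_zero] at h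
  have hb2 : A.valuation W.b₂ = 1 := by
    have e : W.b₂ = -(W.b₂ + 12 * r₁) + 2 * (6 * r₁ + W.b₂) := by ring
    rw [e, A.valuation.map_add_eq_of_lt_left, A.valuation.map_neg, hsq]
    rw [A.valuation.map_neg, hsq, map_mul]
    exact (mul_le_of_le_one_left zero_le (by exact_mod_cast natCast_valuation_le 2)).trans_lt
      hsmall
  have h6 : A.valuation (6 : K) * A.valuation r₁ = 1 := by
    rw [← map_mul, show 6 * r₁ = -W.b₂ + (6 * r₁ + W.b₂) by ring,
      A.valuation.map_add_eq_of_lt_left (by rwa [A.valuation.map_neg, hb2]),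
      A.valuation.map_neg, hb2]
  refine ⟨-(W.b₂ / 6) - r₁, ?_, ?_⟩
  · rw [← A.valuation_le_one_iff,
      show -(W.b₂ / 6) - r₁ = -(6 * r₁ + W.b₂) / 6 by ring, map_div₀, A.valuation.map_neg,
      eq_inv_of_mul_eq_one_left h6, div_inv_eq_mul, mul_comm]
    exact hprod
  · linear_combination h1

/-- **Normal form at multiplicative reduction.** -/
theorem exists_tateModel [IsAlgClosed K] (W : WeierstrassCurve K) (hW : IntegralCoeffs A W)
    (hΔ0 : W.Δ ≠ 0) (hΔ : A.valuation W.Δ < 1) (hc4 : A.valuation W.c₄ = 1) :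
    ∃ (C : VariableChange K) (c : K), C • W = tateModel c ∧ A.valuation (C.u : K) = 1 ∧
      C.r ∈ A ∧ C.s ∈ A ∧ C.t ∈ A ∧ c ≠ 0 ∧ A.valuation c < 1 ∧
      A.valuation c = A.valuation W.Δ := by
  have key : ∀ {C : VariableChange K} {c : K}, C • W = tateModel c →
      A.valuation c * A.valuation (1 + 432 * c) = A.valuation W.Δ := by
    intro C c hC
    have hu := valuation_u_eq_one hc4 hC
    have h := congrArg (fun W' => A.valuation W'.Δ) hC
    rw [variableChange_Δ, Δ_tateModel, map_mul, map_pow, Units.val_inv_eq_inv_val,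
      map_inv₀, hu, inv_one, one_pow, one_mul, map_mul, A.valuation.map_neg] at h
    exact h.symm
  have finish : ∀ {C : VariableChange K} {c : K}, C • W = tateModel c → C.r ∈ A → C.s ∈ A →
      C.t ∈ A → A.valuation c < 1 →
      ∃ (C : VariableChange K) (c : K), C • W = tateModel c ∧ A.valuation (C.u : K) = 1 ∧
        C.r ∈ A ∧ C.s ∈ A ∧ C.t ∈ A ∧ c ≠ 0 ∧ A.valuation c < 1 ∧
        A.valuation c = A.valuation W.Δ := by
    intro C c hC hr hs ht hc
    have h432 : A.valuation (1 + 432 * c) = 1 := by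
      rw [A.valuation.map_add_eq_of_lt_left, map_one]
      rw [map_one, map_mul]
      exact (mul_le_of_le_one_left zero_le
        (by exact_mod_cast natCast_valuation_le 432)).trans_lt hc
    have hvc := key hC
    rw [h432, mul_one] at hvc
    refine ⟨C, c, hC, valuation_u_eq_one hc4 hC, hr, hs, ht, ?_, hc, hvc⟩
    rintro rfl
    rw [map_zero] at hvc
    exact hΔ0 ((map_eq_zero A.valuation).mp hvc.symm)
  obtain ⟨r, hr, hroot⟩ := exists_root hW hc4
  obtain ⟨C, c, hC, hCr, hs, ht, hcA⟩ := exists_of_root hW hc4 hr hroot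
  by_cases hc : A.valuation c < 1
  · exact finish hC (hCr ▸ hr) hs ht hc
  have hvc : A.valuation c = 1 :=
    le_antisymm ((A.valuation_le_one_iff c).mpr hcA) (le_of_not_gt hc)
  have hD : A.valuation (1 + 432 * c) < 1 := by
    have h := key hC
    rw [hvc, one_mul] at h
    rwa [h]
  have h432 : A.valuation (432 : K) = 1 := by
    have e : 432 * c = (1 + 432 * c) + -1 := by ring
    have h := congrArg A.valuation e
    rwa [A.valuation.map_add_eq_of_lt_right (by rwa [A.valuation.map_neg, map_one]),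
      A.valuation.map_neg, map_one, map_mul, hvc, mul_one] at h
  have h6 : A.valuation (6 : K) = 1 := by
    refine le_antisymm (by exact_mod_cast natCast_valuation_le 6) ?_
    rw [← h432, show (432 : K) = 6 * 72 by norm_num, map_mul]
    exact mul_le_of_le_one_right zero_le (by exact_mod_cast natCast_valuation_le 72)
  have hr' : -(W.b₂ / 6) - r ∈ A := by
    refine sub_mem (neg_mem ?_) hr
    rw [← A.valuation_le_one_iff, map_div₀, h6, div_one, A.valuation_le_one_iff]
    exact hW.b₂_mem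
  obtain ⟨C', c', hC', hCr', hs', ht', -⟩ :=
    exists_of_root hW hc4 hr' (by linear_combination hroot)
  refine finish hC' (hCr' ▸ hr') hs' ht' ?_
  have hU : ∀ {D : VariableChange K} {d : K}, D • W = tateModel d →
      ((D.u : K)) ^ 2 = W.b₂ + 12 * D.r ∧ W.c₆ = ((D.u : K) ^ 2) ^ 3 * (-1 - 864 * d) := by
    intro D d hD
    obtain ⟨e1, e2, -, -⟩ := eqs_of_normalForm hD
    refine ⟨by rw [e1, b₂]; linear_combination 4 * e2, ?_⟩
    have h := congrArg WeierstrassCurve.c₆ hD
    rw [variableChange_c₆, c₆_tateModel, Units.val_inv_eq_inv_val, inv_pow,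
      inv_mul_eq_iff_eq_mul₀ (pow_ne_zero _ D.u.ne_zero)] at h
    rw [h]; ring
  obtain ⟨a1, a2⟩ := hU hC
  obtain ⟨b1, b2'⟩ := hU hC'
  have e : (C'.u : K) ^ 2 = -(C.u : K) ^ 2 := by rw [a1, b1, hCr, hCr']; ring
  rw [e] at b2'
  have hz : ((C.u : K) ^ 2) ^ 3 * (2 + 864 * (c + c')) = 0 := by
    linear_combination a2 - b2'
  have hsum := (mul_eq_zero.mp hz).resolve_left
    (pow_ne_zero _ (pow_ne_zero _ C.u.ne_zero))
  have hc' : 432 * c' = -(1 + 432 * c) := by
    linear_combination (1 / 2 : K) * hsum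
  have h := congrArg A.valuation hc'
  rw [map_mul, h432, one_mul, A.valuation.map_neg] at h
  rwa [h]

variable (A) in
/-- An endomorphism fixing `W` and acting trivially on residues fixes the normal form. -/
theorem map_eq_of_normalForm {W : WeierstrassCurve K} (hc4 : A.valuation W.c₄ = 1)
    {C : VariableChange K} {c : K} (hC : C • W = tateModel c) (hr : C.r ∈ A) (hs : C.s ∈ A)
    {σ : K →+* K} (hσ : ∀ x ∈ A, A.valuation (σ x - x) < 1) (hσW : W.map σ = W) :
    C.map σ = C ∧ σ c = c := by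
  have hC' : C.map σ • W = tateModel (σ c) := by
    have h : (C.map σ) • (W.map σ) = (C • W).map σ := map_variableChange W C σ
    rw [hσW, hC] at h
    rw [h]; ext <;> simp [tateModel, WeierstrassCurve.map]
  have hu := valuation_u_eq_one hc4 hC
  obtain ⟨e1, e2, e3, e4⟩ := eqs_of_normalForm hC
  obtain ⟨d1, d2, d3, d4⟩ := eqs_of_normalForm hC'
  simp only [VariableChange.map_u, Units.coe_map, MonoidHom.coe_coe, VariableChange.map_r,
    VariableChange.map_s, VariableChange.map_t] at d1 d2 d3 d4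
  have hu2 : (C.u : K) ^ 2 = W.b₂ + 12 * C.r := by
    rw [e1, b₂]; linear_combination 4 * e2
  have hreq : σ C.r = C.r := by
    by_contra hne
    have hfac : (σ C.r - C.r) * (6 * (σ C.r - C.r) + (C.u : K) ^ 2) = 0 := by
      rw [hu2]; linear_combination d4 - e4
    have h0 := (mul_eq_zero.mp hfac).resolve_left (sub_ne_zero.mpr hne)
    have hlt : A.valuation (6 * (σ C.r - C.r)) < 1 := by
      rw [map_mul]
      exact (mul_le_of_le_one_left zero_le
        (by exact_mod_cast natCast_valuation_le 6)).trans_lt (hσ _ hr)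
    have h := congrArg A.valuation h0
    rw [A.valuation.map_add_eq_of_lt_right (by rwa [map_pow, hu, one_pow]), map_pow, hu,
      one_pow, map_zero] at h
    exact one_ne_zero h
  have hseq : σ C.s = C.s := by
    by_contra hne
    have hfac : (σ C.s - C.s) * ((σ C.s - C.s) + (C.u : K)) = 0 := by
      rw [e1]; rw [hreq] at d2; linear_combination d2 - e2
    have h0 := (mul_eq_zero.mp hfac).resolve_left (sub_ne_zero.mpr hne)
    have h := congrArg A.valuation h0
    rw [A.valuation.map_add_eq_of_lt_right (by rw [hu]; exact hσ _ hs), hu, map_zero] at h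
    exact one_ne_zero h
  have hueq : σ (C.u : K) = C.u := by rw [d1, hseq, ← e1]
  have hteq : σ C.t = C.t := by
    rw [hreq, ← e3] at d3
    exact mul_left_cancel₀ two_ne_zero d3
  have hCC : C.map σ = C := by
    ext <;> simp [hreq, hseq, hueq, hteq]
  refine ⟨hCC, ?_⟩
  rw [hCC, hC] at hC'
  exact (congrArg WeierstrassCurve.a₆ hC').symm

end CharZero

end Fermat.Agent.EC.Mult
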