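import Fermat.Agent.EC.Mult.NormalForm
import Fermat.Agent.EC.TateInertia
import Fermat.Agent.EC.Inertia.Hensel
import Fermat.Agent.EC.Det.VariableChangePoint
import Fermat.Agent.EC.Red.Qbar
import Fermat.Agent.EC.Mult.Ramification
import Fermat.Agent.Galois.Frobenius
import Mathlib.NumberTheory.Padics.PadicVal.Basic

/-!
# Inertia on torsion of an integral Weierstrass model at multiplicative primes

For `W` over `ℤ`, a place `A` of `ℚ̄` over a prime `q` with `q ∣ Δ`, `q ∤ c₄`: inertia acts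
unipotently on `n`-torsion (`q ∤ n`), and trivially when `n ∣ ord_q Δ`.
-/

set_option autoImplicit false

noncomputable section

open IsLocalRing WeierstrassCurve
open scoped WeierstrassCurve.Affine

namespace Fermat.Agent.EC.Mult

open TateTheta

local notation "Qb" => AlgebraicClosure ℚ

variable (W : WeierstrassCurve ℤ) (A : ValuationSubring (AlgebraicClosure ℚ)) {q : ℕ}

/-- `W` over `ℚ̄`. -/
abbrev curveQbar : WeierstrassCurve Qb := (W.map (Int.castRingHom ℚ))⁄Qb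

lemma curveQbar_eq : curveQbar W = W.map (Int.castRingHom Qb) := by
  ext <;> simp

lemma integralCoeffs_curveQbar : IntegralCoeffs A (curveQbar W) := by
  rw [curveQbar_eq]
  constructor <;> exact intCast_mem A.toSubring _

lemma valuation_intCast_lt_one_iff (hq : q.Prime) (hA : A.LiesOverPrime q) (m : ℤ) :
    A.valuation (m : Qb) < 1 ↔ (q : ℤ) ∣ m := by
  rw [← ValuationSubring.mem_nonunits_iff]
  exact Galois.intCast_mem_nonunits_iff A hq hA m

/-- The facts about a multiplicative place and a change of variables to the normal form. -/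
structure MultData where
  C : VariableChange Qb
  c : Qb
  hC : C • curveQbar W = tateModel c
  hu : A.valuation (C.u : Qb) = 1
  hr : C.r ∈ A
  hs : C.s ∈ A
  ht : C.t ∈ A
  hc0 : c ≠ 0
  hc : A.valuation c < 1
  hvc : A.valuation c = A.valuation (W.Δ : Qb)
  hc4 : A.valuation (curveQbar W).c₄ = 1

variable {W A}

theorem nonempty_multData (hq : q.Prime) (hA : A.LiesOverPrime q) (hΔ0 : W.Δ ≠ 0)
    (hΔ : (q : ℤ) ∣ W.Δ) (hc4 : ¬ (q : ℤ) ∣ W.c₄) : Nonempty (MultData W A) := by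
  have e1 : (curveQbar W).Δ = (W.Δ : Qb) := by
    rw [curveQbar_eq, map_Δ]; rfl
  have e2 : (curveQbar W).c₄ = (W.c₄ : Qb) := by
    rw [curveQbar_eq, map_c₄]; rfl
  have h4 : A.valuation (curveQbar W).c₄ = 1 := by
    rw [e2]; exact valuation_intCast_eq_one hq hA hc4
  obtain ⟨C, c, hC, hu, hr, hs, ht, hc0, hc, hvc⟩ :=
    exists_tateModel (curveQbar W) (integralCoeffs_curveQbar W A)
      (by rw [e1]; exact Int.cast_ne_zero.mpr hΔ0)
      (by rw [e1]; exact (valuation_intCast_lt_one_iff A hq hA _).mpr hΔ) h4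
  exact ⟨⟨C, c, hC, hu, hr, hs, ht, hc0, hc, by rw [hvc, e1], h4⟩⟩

namespace MultData

variable (D : MultData W A)

/-- The isomorphism from the normal form. -/
def equiv : (tateModel D.c).toAffine.Point ≃+ ((W.map (Int.castRingHom ℚ))⁄Qb).Point :=
  vcPointEquiv (W := (curveQbar W).toAffine) (W' := (tateModel D.c).toAffine) D.hC

variable {σ : AlgebraicClosure ℚ ≃ₐ[ℚ] AlgebraicClosure ℚ}

lemma res (hσ : σ ∈ A.inertiaSubgroupIn ℚ) :
    ∀ z ∈ A, A.valuation (σ.toRingEquiv z - z) < 1 :=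
  fun _ hz => (ValuationSubring.mem_nonunits_iff (A := A)).mp (Inertia.apply_sub_mem_nonunits hσ hz)

lemma mem_iff (hσ : σ ∈ A.inertiaSubgroupIn ℚ) : ∀ z, σ.toRingEquiv z ∈ A ↔ z ∈ A :=
  Inertia.apply_mem_iff hσ

lemma fixed (hσ : σ ∈ A.inertiaSubgroupIn ℚ) :
    D.C.map (σ.toRingEquiv : Qb →+* Qb) = D.C ∧ σ.toRingEquiv D.c = D.c := by
  refine map_eq_of_normalForm A D.hc4 D.hC D.hr D.hs (σ := (σ.toRingEquiv : Qb →+* Qb))
    (res hσ) ?_
  rw [curveQbar_eq]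
  ext <;> simp

lemma equiv_mapPt (hσ : σ ∈ A.inertiaSubgroupIn ℚ) (Q : (tateModel D.c).toAffine.Point) :
    D.equiv (mapPt σ.toRingEquiv (D.fixed hσ).2 Q) = σ • D.equiv Q := by
  rcases Q with _ | ⟨x, y, h⟩
  · rfl
  · have hf := (D.fixed hσ).1
    have hu : σ (D.C.u : Qb) = D.C.u := congrArg (fun C => (C.u : Qb)) hf
    have hr : σ D.C.r = D.C.r := congrArg VariableChange.r hf
    have hs : σ D.C.s = D.C.s := congrArg VariableChange.s hf
    have ht : σ D.C.t = D.C.t := congrArg VariableChange.t hf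
    simp [equiv, mapPt, vcPointEquiv_some, Affine.Point.algEquiv_smul_def, Affine.Point.map_some,
      vcX, vcY, hu, hr, hs, ht]

lemma nsmul_mapPt (hσ : σ ∈ A.inertiaSubgroupIn ℚ) {n : ℕ}
    {Q : (tateModel D.c).toAffine.Point} (hQ : n • Q = 0) :
    n • mapPt σ.toRingEquiv (D.fixed hσ).2 Q = 0 := by
  apply D.equiv.injective
  rw [map_nsmul, D.equiv_mapPt hσ, map_zero, ← natCast_zsmul,
    ← Affine.Point.algEquiv_smul_zsmul, natCast_zsmul, ← map_nsmul, hQ, map_zero, smul_zero]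

include D in
/-- Inertia is unipotent on torsion prime to `q`: `(τ - 1) (σ - 1) = 0`. -/
theorem smul_sub_fixed (hσ : σ ∈ A.inertiaSubgroupIn ℚ) {τ : AlgebraicClosure ℚ ≃ₐ[ℚ] AlgebraicClosure ℚ}
    (hτ : τ ∈ A.inertiaSubgroupIn ℚ) {n : ℕ}
    (hn : (n : ResidueField A) ≠ 0)
    {P : ((W.map (Int.castRingHom ℚ))⁄Qb).Point} (hP : n • P = 0) :
    τ • (σ • P - P) = σ • P - P := by
  obtain ⟨Q, rfl⟩ := D.equiv.surjective P
  have hQ : n • Q = 0 := D.equiv.injective (by rw [map_nsmul, hP, map_zero])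
  rw [← D.equiv_mapPt hσ, ← map_sub, ← D.equiv_mapPt hτ, mapPt_sub_fixed D.hc0 σ.toRingEquiv
    (res hσ) (D.fixed hσ).2 D.hc τ.toRingEquiv (res hτ) (D.fixed hτ).2 hn hQ]

include D in
/-- Inertia is unipotent on torsion prime to `q`. -/
theorem smul_smul_sub (hσ : σ ∈ A.inertiaSubgroupIn ℚ) {n : ℕ}
    (hn : (n : ResidueField A) ≠ 0)
    {P : ((W.map (Int.castRingHom ℚ))⁄Qb).Point} (hP : n • P = 0) :
    σ • (σ • P) - σ • P - (σ • P - P) = 0 := by
  have h := D.smul_sub_fixed hσ hσ hn hP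
  rw [smul_sub] at h
  rw [h, sub_self]

include D in
/-- Inertia is trivial on `n`-torsion if `v Δ` is an `n`-th power of a rational valuation. -/
theorem smul_eq_self (hσ : σ ∈ A.inertiaSubgroupIn ℚ) {n : ℕ}
    (hn : (n : ResidueField A) ≠ 0) {b : ℕ}
    (hb : A.valuation (W.Δ : Qb) = A.valuation (b : Qb) ^ n)
    {P : ((W.map (Int.castRingHom ℚ))⁄Qb).Point} (hP : n • P = 0) : σ • P = P := by
  obtain ⟨Q, rfl⟩ := D.equiv.surjective P
  have hQ : n • Q = 0 := D.equiv.injective (by rw [map_nsmul, hP, map_zero])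
  rw [← D.equiv_mapPt hσ, mapPt_eq_self D.hc0 σ.toRingEquiv (res hσ) (D.fixed hσ).2 D.hc hn hQ
    (π := (b : Qb)) (map_natCast _ b) (D.hvc.trans hb)]

end MultData

/-- **Inertia is trivial on `E[n]` at a multiplicative prime `q ∤ n` with `n ∣ ord_q Δ`.** -/
theorem smul_eq_of_dvd (hq : q.Prime) (hA : A.LiesOverPrime q) (hΔ0 : W.Δ ≠ 0)
    (hΔ : (q : ℤ) ∣ W.Δ) (hc4 : ¬ (q : ℤ) ∣ W.c₄) {n : ℕ} (hn : ¬ q ∣ n)
    (hv : n ∣ padicValInt q W.Δ) {σ : AlgebraicClosure ℚ ≃ₐ[ℚ] AlgebraicClosure ℚ}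
    (hσ : σ ∈ A.inertiaSubgroupIn ℚ) {P : ((W.map (Int.castRingHom ℚ))⁄Qb).Point}
    (hP : n • P = 0) : σ • P = P := by
  obtain ⟨D⟩ := nonempty_multData hq hA hΔ0 hΔ hc4
  obtain ⟨k, hk⟩ := hv
  refine D.smul_eq_self hσ (natCast_residue_ne_zero A hq hA hn) (b := q ^ k) ?_ hP
  rw [valuation_intCast hq hA hΔ0, hk, Nat.cast_pow, map_pow, ← pow_mul, mul_comm n k]

/-- **Inertia is unipotent on `E[n]` at a multiplicative prime `q ∤ n`.** -/
theorem smul_smul_sub_eq_zero (hq : q.Prime) (hA : A.LiesOverPrime q) (hΔ0 : W.Δ ≠ 0)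
    (hΔ : (q : ℤ) ∣ W.Δ) (hc4 : ¬ (q : ℤ) ∣ W.c₄) {n : ℕ} (hn : ¬ q ∣ n)
    {σ : AlgebraicClosure ℚ ≃ₐ[ℚ] AlgebraicClosure ℚ}
    (hσ : σ ∈ A.inertiaSubgroupIn ℚ) {P : ((W.map (Int.castRingHom ℚ))⁄Qb).Point}
    (hP : n • P = 0) : σ • (σ • P) - σ • P - (σ • P - P) = 0 := by
  obtain ⟨D⟩ := nonempty_multData hq hA hΔ0 hΔ hc4
  exact D.smul_smul_sub hσ (natCast_residue_ne_zero A hq hA hn) hP

/-- `(τ - 1) (σ - 1) = 0` for inertia elements at a multiplicative prime `q ∤ n`. -/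
theorem smul_sub_fixed_of_mult (hq : q.Prime) (hA : A.LiesOverPrime q) (hΔ0 : W.Δ ≠ 0)
    (hΔ : (q : ℤ) ∣ W.Δ) (hc4 : ¬ (q : ℤ) ∣ W.c₄) {n : ℕ} (hn : ¬ q ∣ n)
    {σ τ : AlgebraicClosure ℚ ≃ₐ[ℚ] AlgebraicClosure ℚ}
    (hσ : σ ∈ A.inertiaSubgroupIn ℚ) (hτ : τ ∈ A.inertiaSubgroupIn ℚ)
    {P : ((W.map (Int.castRingHom ℚ))⁄Qb).Point} (hP : n • P = 0) :
    τ • (σ • P - P) = σ • P - P := by
  obtain ⟨D⟩ := nonempty_multData hq hA hΔ0 hΔ hc4
  exact D.smul_sub_fixed hσ hτ (natCast_residue_ne_zero A hq hA hn) hP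

/-- Semistable, `n ∣ ord_q Δ`: `E[n]` is unramified at `q ∤ n`. -/
theorem galoisRepUnramifiedAt_of_dvd (hq : q.Prime) (hΔ0 : W.Δ ≠ 0)
    (hss : (q : ℤ) ∣ W.Δ → ¬ (q : ℤ) ∣ W.c₄) {n : ℕ} (hn : ¬ q ∣ n)
    (hv : n ∣ padicValInt q W.Δ) :
    WeierstrassCurve.Affine.Point.GaloisRepUnramifiedAt (K := AlgebraicClosure ℚ) ℚ
      (W.map (Int.castRingHom ℚ)) n q := by
  by_cases hΔ : (q : ℤ) ∣ W.Δ
  · intro A hA σ hσ x
    refine Subtype.ext (smul_eq_of_dvd hq hA hΔ0 hΔ (hss hΔ) hn hv hσ ?_)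
    rw [← natCast_zsmul]
    exact (Submodule.mem_torsionBy_iff _ _).1 x.2
  · exact galoisRepUnramifiedAt_of_isGoodPrimeFor W hq hΔ hn

end Fermat.Agent.EC.Mult
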