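import Fermat.Agent.EC.Mult.Ramification
import Fermat.Agent.EC.Red.Qbar
import Mathlib.Data.ZMod.Basic
import Mathlib.GroupTheory.OrderOfElement

/-!
# Torsion fixed by the decomposition group in the zero component

A point of order `p` of the zero component fixed by a decomposition group over `q ≠ p` reduces
to an `𝔽_q`-point of the special fibre, so it does not exist when `p` exceeds their number.
-/

set_option autoImplicit false

noncomputable section

open IsLocalRing WeierstrassCurve
open WeierstrassCurve.Affine (Point)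
open scoped WeierstrassCurve.Affine Pointwise

namespace Fermat.Agent.EC.Mult

local notation "Qb" => AlgebraicClosure ℚ

/-- The nonsingular affine `ZMod q`-points of the reduction of `W`. -/
abbrev ResiduePoints (W : WeierstrassCurve ℤ) (q : ℕ) : Type :=
  {w : ZMod q × ZMod q //
    (W.map (Int.castRingHom (ZMod q))).toAffine.Nonsingular w.1 w.2}

variable {W : WeierstrassCurve ℤ} {A : ValuationSubring (AlgebraicClosure ℚ)} {q : ℕ}

theorem exists_zmod_point (hq : q.Prime) (hA : A.LiesOverPrime q)
    {Q : ((W.map (Int.castRingHom ℚ))⁄Qb).Point}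
    (hfix : ∀ σ ∈ A.decompositionSubgroup ℚ, σ • Q = Q) (hQ : (qbarModel W A).red Q ≠ 0) :
    ∃ (w : ResiduePoints W q) (h : (specialFibre W A).Nonsingular (w.1.1.val : ResidueField A)
      (w.1.2.val : ResidueField A)), (qbarModel W A).red Q = .some _ _ h := by
  have : Fact q.Prime := ⟨hq⟩
  have := charP_residueField A hq hA
  obtain _ | ⟨x, y, h⟩ := Q
  · exact absurd rfl hQ
  by_cases hx : x ∈ A
  · have hy := (qbarModel W A).mem_y_of_mem_x h.1 hx
    by_cases hns : (specialFibre W A).Nonsingular (residue A ⟨x, hx⟩) (residue A ⟨y, hy⟩)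
    · have hxy : ∀ σ ∈ A.decompositionSubgroup ℚ, σ x = x ∧ σ y = y := by
        intro σ hσ
        obtain ⟨h', e⟩ := exists_smul_some W σ h
        have := hfix σ hσ
        rw [e] at this
        injection this with h1 h2
        exact ⟨h1, h2⟩
      obtain ⟨r, -, hr⟩ := exists_residue_eq_natCast hq hA hx fun σ hσ => (hxy σ hσ).1
      obtain ⟨s, -, hs⟩ := exists_residue_eq_natCast hq hA hy fun σ hσ => (hxy σ hσ).2
      have hval : ∀ n : ℕ, (((n : ZMod q).val : ℕ) : ResidueField A) = (n : ResidueField A) :=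
        fun n => by rw [ZMod.val_natCast, CharP.cast_eq_mod (ResidueField A) q n]
      have hcurve : specialFibre W A = ((W.map (Int.castRingHom (ZMod q))).toAffine.map
          (ZMod.castHom (dvd_refl q) (ResidueField A))).toAffine := by
        ext <;> simp
      have hns' : (W.map (Int.castRingHom (ZMod q))).toAffine.Nonsingular (r : ZMod q) (s : ZMod q) := by
        refine (Affine.map_nonsingular _ (ZMod.castHom (dvd_refl q) (ResidueField A)).injective _ _).1 ?_
        rw [map_natCast, map_natCast, ← hr, ← hs]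
        convert hns using 1
        exact hcurve.symm
      refine ⟨⟨((r : ZMod q), (s : ZMod q)), hns'⟩, ?_, ?_⟩
      · rw [hval, hval, ← hr, ← hs]; exact hns
      · rw [(qbarModel W A).red_some h hx hy hns]
        simp only [hval, hr, hs]
    · exact absurd (red_some_of_singular W A h hx hy hns) hQ
  · exact absurd ((qbarModel W A).red_some_of_not_mem h hx) hQ

/-- A decomposition-fixed point of prime order `p ≠ q` in the zero component is zero when the
reduction has fewer than `p` points rational over `ZMod q`. -/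
theorem eq_zero_of_card_residuePoints (hq : q.Prime) (hA : A.LiesOverPrime q) {p : ℕ}
    (hp : p.Prime) (hpq : p ≠ q) (hcard : Nat.card (ResiduePoints W q) + 1 < p)
    {P : ((W.map (Int.castRingHom ℚ))⁄Qb).Point}
    (hfix : ∀ σ ∈ A.decompositionSubgroup ℚ, σ • P = P) (hE0 : W.InZeroComponentAt A P)
    (hP : p • P = 0) : P = 0 := by
  classical
  have : Fact q.Prime := ⟨hq⟩
  set M := qbarModel W A
  have hmem : P ∈ M.E0 := (inE0_qbarModel_iff W A P).2 hE0
  have hn : (p : ResidueField A) ≠ 0 := natCast_residue_ne_zero A hq hA fun h =>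
    hpq ((Nat.prime_dvd_prime_iff_eq hq hp).1 h).symm
  by_contra hne
  have hred : M.redE0 ⟨P, hmem⟩ ≠ 0 := fun h =>
    hne (M.eq_zero_of_red_eq_zero_of_nsmul_eq_zero hmem h hn hP)
  have : Fact p.Prime := ⟨hp⟩
  have hord : addOrderOf (M.redE0 ⟨P, hmem⟩) = p := addOrderOf_eq_prime
    (by rw [← map_nsmul, show p • (⟨P, hmem⟩ : M.E0) = 0 from Subtype.ext (by simpa using hP),
      map_zero]) hred
  let g : Option (ResiduePoints W q) → (specialFibre W A).Point := fun o =>
    match o with
    | none => 0
    | some w => if h : (specialFibre W A).Nonsingular (w.1.1.val : ResidueField A)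
        (w.1.2.val : ResidueField A) then .some _ _ h else 0
  have hrange : ∀ k : ℕ, k • M.redE0 ⟨P, hmem⟩ ∈ Set.range g := by
    intro k
    rw [← map_nsmul]
    rcases eq_or_ne (M.redE0 (k • ⟨P, hmem⟩)) 0 with h0 | h0
    · exact ⟨none, h0.symm⟩
    · obtain ⟨w, h, hw⟩ := exists_zmod_point hq hA (Q := k • P)
        (fun σ hσ => by
          rw [← natCast_zsmul, Affine.Point.algEquiv_smul_zsmul, hfix σ hσ]) h0
      exact ⟨some w, (dif_pos h).trans hw.symm⟩
  have hle : p ≤ Nat.card (Option (ResiduePoints W q)) := by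
    let f : Fin p → Set.range g := fun k => ⟨_, hrange k⟩
    have hf : Function.Injective f := fun i j hij => Fin.ext
      (nsmul_injOn_Iio_addOrderOf (x := M.redE0 ⟨P, hmem⟩) (by simp [hord]) (by simp [hord])
        (congrArg Subtype.val hij))
    calc p = Nat.card (Fin p) := (Nat.card_fin p).symm
      _ ≤ Nat.card (Set.range g) := Nat.card_le_card_of_injective f hf
      _ ≤ _ := Nat.card_le_card_of_surjective _ Set.rangeFactorization_surjective
  rw [Finite.card_option] at hle
  omega

theorem card_residuePoints_le [Fact q.Prime] : Nat.card (ResiduePoints W q) ≤ 2 * q := by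
  classical
  rw [Nat.card_eq_fintype_card, Fintype.card_subtype]
  calc _ ≤ ((Finset.univ : Finset (ZMod q)).biUnion fun u =>
        ({v | (W.map (Int.castRingHom (ZMod q))).toAffine.Equation u v} : Finset _).image
          (fun v => (u, v))).card := by
        refine Finset.card_le_card fun w hw => ?_
        simp only [Finset.mem_filter, Finset.mem_univ, true_and, Finset.mem_biUnion,
          Finset.mem_image] at hw ⊢
        exact ⟨w.1, w.2, hw.1, rfl⟩
    _ ≤ ∑ _u : ZMod q, 2 := by
        refine le_trans Finset.card_biUnion_le (Finset.sum_le_sum fun u _ => ?_)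
        refine le_trans Finset.card_image_le ?_
        set E := (W.map (Int.castRingHom (ZMod q))).toAffine with hE
        rcases Finset.eq_empty_or_nonempty ({v | E.Equation u v} : Finset (ZMod q)) with h0 | ⟨v, hv⟩
        · rw [h0]; simp
        · refine le_trans (Finset.card_le_card (t := {v, E.negY u v}) fun v' hv' => ?_)
            Finset.card_le_two
          simp only [Finset.mem_filter, Finset.mem_univ, true_and] at hv hv'
          simpa using Affine.Y_eq_of_X_eq hv' hv rfl
    _ = 2 * q := by simp [ZMod.card, mul_comm]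

/-- At `q = 2` a model with `a₁` odd has at most three nonsingular affine `ZMod 2`-points. -/
theorem card_residuePoints_two_le (ha : ¬ (2 : ℤ) ∣ W.a₁) :
    Nat.card (ResiduePoints W 2) ≤ 3 := by
  have key : ∀ (a₂ a₃ a₄ a₆ : ZMod 2),
      (Finset.univ.filter fun w : ZMod 2 × ZMod 2 =>
        w.2 ^ 2 + 1 * w.1 * w.2 + a₃ * w.2 = w.1 ^ 3 + a₂ * w.1 ^ 2 + a₄ * w.1 + a₆).card ≤ 3 := by
    decide
  have h1 : ((W.a₁ : ℤ) : ZMod 2) = 1 := by
    have h2 : ((W.a₁ : ℤ) : ZMod 2) ≠ 0 := fun h =>
      ha ((ZMod.intCast_zmod_eq_zero_iff_dvd _ 2).1 h)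
    revert h2; generalize ((W.a₁ : ℤ) : ZMod 2) = a; revert a; decide
  classical
  rw [Nat.card_eq_fintype_card, Fintype.card_subtype]
  refine le_trans (Finset.card_le_card fun w hw => ?_)
    (key (W.a₂ : ZMod 2) (W.a₃ : ZMod 2) (W.a₄ : ZMod 2) (W.a₆ : ZMod 2))
  simp only [Finset.mem_filter, Finset.mem_univ, true_and] at hw ⊢
  have h := (Affine.equation_iff _ _).1 hw.1
  simpa [h1] using h

theorem two_not_dvd_a₁ (hc4 : ¬ (2 : ℤ) ∣ W.c₄) : ¬ (2 : ℤ) ∣ W.a₁ := by
  rintro ⟨k, hk⟩
  exact hc4 ⟨8 * (k ^ 2 + W.a₂) ^ 2 - 12 * (2 * W.a₄ + W.a₁ * W.a₃), by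
    simp only [WeierstrassCurve.c₄, WeierstrassCurve.b₂, WeierstrassCurve.b₄, hk]; ring⟩

/-- No decomposition-fixed point of prime order `p ≥ 5` in the zero component at `2`. -/
theorem eq_zero_of_inZeroComponentAt_two (hA : A.LiesOverPrime 2) (hc4 : ¬ (2 : ℤ) ∣ W.c₄) {p : ℕ}
    (hp : p.Prime) (hp5 : 5 ≤ p) {P : ((W.map (Int.castRingHom ℚ))⁄Qb).Point}
    (hfix : ∀ σ ∈ A.decompositionSubgroup ℚ, σ • P = P) (hE0 : W.InZeroComponentAt A P)
    (hP : p • P = 0) : P = 0 :=
  eq_zero_of_card_residuePoints Nat.prime_two hA hp (by omega)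
    (by have := card_residuePoints_two_le (W := W) (two_not_dvd_a₁ hc4); omega) hfix hE0 hP

/-- No decomposition-fixed point of prime order `p > 2q + 1` in the zero component at `q`. -/
theorem eq_zero_of_inZeroComponentAt_of_lt (hq : q.Prime) (hA : A.LiesOverPrime q) {p : ℕ}
    (hp : p.Prime) (hpq : 2 * q + 1 < p) {P : ((W.map (Int.castRingHom ℚ))⁄Qb).Point}
    (hfix : ∀ σ ∈ A.decompositionSubgroup ℚ, σ • P = P) (hE0 : W.InZeroComponentAt A P)
    (hP : p • P = 0) : P = 0 :=
  have : Fact q.Prime := ⟨hq⟩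
  eq_zero_of_card_residuePoints hq hA hp (by omega)
    (by have := card_residuePoints_le (W := W) (q := q); omega) hfix hE0 hP

end Fermat.Agent.EC.Mult
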